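import Fermat.Agent.LLc.RatData

/-!
# The rational structure of `X₀(N r)` at `r` for subgroups of the inertia group
-/

set_option autoImplicit false
set_option linter.unusedSectionVars false
set_option linter.style.haveILetI false

noncomputable section

open HahnSeries ModularCurve Module AlgebraicCurve

namespace Fermat.Agent.LLc

open Fermat.Agent.Igusa Fermat.Agent.BadRed Fermat.Agent.LLp Fermat.Agent.FunField

attribute [-instance] DivisionRing.toRatAlgebra

section Inert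

variable {L : Type*} [Field L] [Algebra ℚ L] {A : ValuationSubring L}
  {κ : Type*} [Field κ] (π : A →+* κ)

/-- a subgroup of the Galois group as a set of ring automorphisms -/
def grpΓ (H : Subgroup (L ≃ₐ[ℚ] L)) : Set (L ≃+* L) :=
  {σ | ∃ s ∈ H, σ = (s : L ≃ₐ[ℚ] L).toRingEquiv}

theorem grpΓ_inertia : grpΓ (A.inertiaSubgroupIn ℚ) = inertΓ A := rfl

theorem mem_fix₀_grpΓ {H : Subgroup (L ≃ₐ[ℚ] L)} {a : L} :
    a ∈ fix₀ (grpΓ H) ↔ ∀ s ∈ H, s a = a := by
  constructor
  · intro h s hs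
    exact h _ ⟨s, hs, rfl⟩
  · rintro h _ ⟨s, hs, rfl⟩
    exact h s hs

theorem inertia_sub_lt {s : L ≃ₐ[ℚ] L} (hs : s ∈ A.inertiaSubgroupIn ℚ) {a : L} (ha : a ∈ A) :
    A.valuation (s a - a) < 1 :=
  (EC.trivMod_of_mem_inertia A hs).int a ((A.valuation_le_one_iff a).mpr ha)

theorem inertia_mem {s : L ≃ₐ[ℚ] L} (hs : s ∈ A.inertiaSubgroupIn ℚ) {a : L} (ha : a ∈ A) :
    s a ∈ A := by
  rw [← A.valuation_le_one_iff, KField.val_le_one_iff hs, A.valuation_le_one_iff]
  exact ha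

theorem inertia_mem_iff {s : L ≃ₐ[ℚ] L} (hs : s ∈ A.inertiaSubgroupIn ℚ) (a : L) :
    a ∈ A ↔ s a ∈ A := by
  rw [← A.valuation_le_one_iff, ← A.valuation_le_one_iff, KField.val_le_one_iff hs]

variable [IsLocalHom π]

theorem inertia_res {s : L ≃ₐ[ℚ] L} (hs : s ∈ A.inertiaSubgroupIn ℚ) (a : A) (h : s a ∈ A) :
    π ⟨s a, h⟩ = π a := by
  rw [← sub_eq_zero, ← map_sub, pi_eq_zero_iff]
  exact inertia_sub_lt hs a.2

/-- the pair of sets of automorphisms attached to a subgroup of inertia -/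
theorem inertPair_of {J₀ : Subgroup (L ≃ₐ[ℚ] L)} (hJI : J₀ ≤ A.inertiaSubgroupIn ℚ) {lam : A}
    (h : ∀ a ∈ A, (∀ s ∈ J₀, s a = a) → ∀ s ∈ A.inertiaSubgroupIn ℚ,
      A.valuation (s a - a) ≤ A.valuation (lam : L)) (hlam : (lam : L) ≠ 0) :
    InertPair A π (grpΓ J₀) (grpΓ (A.inertiaSubgroupIn ℚ)) lam where
  sub := by
    rintro _ ⟨s, hs, rfl⟩
    exact ⟨s, hJI hs, rfl⟩
  mem := by
    rintro _ ⟨s, hs, rfl⟩ a ha
    exact inertia_mem hs ha
  res := by
    rintro _ ⟨s, hs, rfl⟩ a h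
    exact inertia_res π hs a h
  diff := by
    rintro _ ⟨s, hs, rfl⟩ a ha haJ
    refine ⟨(s a - a) / lam, ?_, ?_⟩
    · rw [← A.valuation_le_one_iff, map_div₀]
      have h1 : 0 < A.valuation (lam : L) := (Valuation.pos_iff _).2 hlam
      rw [div_le_one₀ h1]
      exact h a ha (mem_fix₀_grpΓ.mp haJ) s hs
    · field_simp
      rfl

end Inert

section KF

variable {L : Type*} [Field L] [Algebra ℚ L] [IsGalois ℚ L] [IsAlgClosed L]
  {A : ValuationSubring L} {κ : Type*} [Field κ] (π : A →+* κ) [IsLocalHom π] {r : ℕ}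

/-- the hypotheses of `KFIELD`, bundled -/
structure KHyp (A : ValuationSubring L) (r : ℕ) (J₀ : Subgroup (L ≃ₐ[ℚ] L)) (v : A.ValueGroup)
    (β : L) : Prop where
  hp : r.Prime
  hp2 : r ≠ 2
  hA : A.LiesOverPrime r
  hJI : J₀ ≤ A.inertiaSubgroupIn ℚ
  hJ : J₀.relIndex (A.inertiaSubgroupIn ℚ) ∣ r
  hβ : A.valuation β = 1
  hβJ : ∀ s ∈ J₀, s β = β
  h1 : ∀ s ∈ A.inertiaSubgroupIn ℚ, A.valuation (s β / β - 1) ≤ v
  h2 : ∀ s ∈ A.inertiaSubgroupIn ℚ, s ∉ J₀ → A.valuation (s β / β - 1) = v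

theorem KHyp.inertPair {J₀ : Subgroup (L ≃ₐ[ℚ] L)} {lam : A} {β : L}
    (H : KHyp A r J₀ (A.valuation (lam : L)) β) (hlam0 : (lam : L) ≠ 0)
    (hlam : A.valuation (lam : L) ^ (r - 1) = A.valuation (r : L)) :
    InertPair A π (grpΓ J₀) (grpΓ (A.inertiaSubgroupIn ℚ)) lam :=
  inertPair_of π H.hJI (fun _ ha haJ _ hs =>
    KField.val_sub_le H.hp H.hp2 H.hA J₀ H.hJI H.hJ hlam H.hβ H.hβJ H.h1 H.h2
      ((A.valuation_le_one_iff _).mpr ha) haJ hs) hlam0

end KF

section Lam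

variable {L k F R : Type*} [Field L] [Field k] [Field F] [CommRing R] [Algebra L F] [Algebra k R]

theorem val_lam_pow {𝔇 : RData L k F R} {r : ℕ} (Λ : LamData 𝔇 r) :
    𝔇.A.valuation (Λ.lam : L) ^ (r - 1) = 𝔇.A.valuation (r : L) := by
  have h1 : 𝔇.A.valuation (Λ.c₀ : L) = 1 := by
    exact (𝔇.A.valuation_eq_one_iff _).mp Λ.isUnit_c₀
  rw [Λ.hn, map_mul, h1, one_mul, map_pow]

end Lam

section Inertia

variable {L : Type*} [Field L] [Algebra ℚ L] [IsGalois ℚ L] {A : ValuationSubring L}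

/-- inertia acts nontrivially on the roots of unity of odd prime order -/
theorem exists_inertia_ne {r : ℕ} (hr : r.Prime) (hr2 : r ≠ 2) (hA : A.LiesOverPrime r) {ζ : A}
    (hζ : IsPrimitiveRoot (ζ : L) r) : ∃ s ∈ A.inertiaSubgroupIn ℚ, s (ζ : L) ≠ ζ := by
  by_contra hcon
  push Not at hcon
  have hne : (ζ : L) - 1 ≠ 0 := sub_ne_zero.mpr (hζ.ne_one hr.one_lt)
  obtain ⟨n, hn⟩ := KField.val_zpow hr hA hne (fun s hs => by rw [map_sub, map_one, hcon s hs])
  have h1 : A.valuation ((ζ : L) - 1) ^ (r - 1) = A.valuation (r : L) := by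
    have hn' := mul_cofac hr hζ
    have hu : A.valuation ((cofac r ζ : A) : L) = 1 := by
      -- the cofactor is a unit as `v ((ζ - 1) ^ (r - 1))` and `v r` are comparable
      have hroot : ∀ k ∈ Finset.range (r - 1), A.valuation
          ((∑ j ∈ Finset.range (k + 1), ζ ^ j : A) : L) = 1 := by
        intro k hk
        have hk' : k + 1 < r := by
          have := Finset.mem_range.mp hk
          omega
        -- `ζ` is a power of `ζ ^ (k + 1)`
        have hcop : Nat.Coprime (k + 1) r :=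
          (Nat.coprime_of_lt_prime (by omega) hk' hr).symm
        obtain ⟨m, -, hm⟩ := Nat.exists_mul_mod_eq_one_of_coprime hcop hr.one_lt
        have e1 : ((∑ j ∈ Finset.range (k + 1), ζ ^ j : A) : L) * ((ζ : L) - 1) =
            (ζ : L) ^ (k + 1) - 1 := by
          push_cast
          exact geom_sum_mul _ _
        have e2 : (∑ j ∈ Finset.range m, ((ζ : L) ^ (k + 1)) ^ j) * ((ζ : L) ^ (k + 1) - 1) =
            (ζ : L) - 1 := by
          rw [geom_sum_mul, ← pow_mul]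
          congr 1
          have h5 : (k + 1) * m ≡ 1 [MOD r] := by
            rw [Nat.ModEq, hm, Nat.mod_eq_of_lt hr.one_lt]
          rw [pow_eq_pow_of_modEq h5 hζ.pow_eq_one, pow_one]
        have e3 : (∑ j ∈ Finset.range m, ((ζ : L) ^ (k + 1)) ^ j) *
            ((∑ j ∈ Finset.range (k + 1), ζ ^ j : A) : L) = 1 := by
          apply mul_right_cancel₀ hne
          rw [mul_assoc, e1, e2, one_mul]
        have h6 : A.valuation ((∑ j ∈ Finset.range (k + 1), ζ ^ j : A) : L) ≤ 1 :=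
          (A.valuation_le_one_iff _).mpr (Subtype.mem _)
        have h7 : A.valuation (∑ j ∈ Finset.range m, ((ζ : L) ^ (k + 1)) ^ j) ≤ 1 :=
          (A.valuation_le_one_iff _).mpr (sum_mem fun j _ => pow_mem (pow_mem ζ.2 _) _)
        apply le_antisymm h6
        have h8 := congrArg A.valuation e3
        rw [map_mul, map_one] at h8
        rw [← h8]
        exact mul_le_of_le_one_left zero_le h7
      rw [cofac]
      push_cast
      rw [map_mul, map_pow, Valuation.map_neg, map_one, one_pow, one_mul, map_prod]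
      refine Finset.prod_eq_one fun k hk => ?_
      have := hroot k hk
      push_cast at this
      exact this
    rw [hn', map_mul, hu, one_mul, map_pow]
    push_cast
    rfl
  have hP1 := KField.val_p_lt hA
  have hP0 := KField.val_p_pos (A := A) hr
  have hanti := zpow_right_strictAnti₀ hP0 hP1
  rw [hn, ← zpow_natCast, ← zpow_mul] at h1
  have h2 : A.valuation (r : L) ^ (n * ((r - 1 : ℕ) : ℤ)) = A.valuation (r : L) ^ (1 : ℤ) := by
    rw [h1, zpow_one]
  have h3 := hanti.injective h2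
  have h4 : ((r - 1 : ℕ) : ℤ) ∣ 1 := ⟨n, by rw [mul_comm]; exact h3.symm⟩
  have h5 : r - 1 = 1 := by
    have h6 : (r - 1) ∣ 1 := by exact_mod_cast h4
    exact Nat.dvd_one.mp h6
  omega

end Inertia

section Conc

variable {L : Type*} [Field L] [IsAlgClosed L] [CharZero L] [Algebra ℚ L] [IsGalois ℚ L]
  {A : ValuationSubring L}
  {κ : Type*} [Field κ] {π : A →+* κ} [IsLocalHom π] {hπ : Function.Surjective π}
  {harch : ArchA π}
  (N r : ℕ) [hr : Fact r.Prime] [hN : NeZero N] [CharP κ r] {hrN : ¬ r ∣ N}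
  {Λ : LamData (twoVal A π hπ harch N r hrN).toRData r} {J₀ : Subgroup (L ≃ₐ[ℚ] L)} {β : L}

/-- the pair -/
theorem inertPairX (H : KHyp A r J₀ (A.valuation ((Λ.lam : A) : L)) β) :
    InertPair A π (grpΓ J₀) (grpΓ (A.inertiaSubgroupIn ℚ)) (Λ.lam : A) :=
  H.inertPair π Λ.lam_ne (val_lam_pow Λ)

/-- **(c) of [CR]**. -/
theorem hr2_conc (H : KHyp A r J₀ (A.valuation ((Λ.lam : A) : L)) β) (a : L) (ha : a ≠ 0)
    (haJ : ∀ s ∈ coefΓ L (N * r) (grpΓ J₀), s • algebraMap L (modularFunctionFieldFullC L (N * r)) a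
      = algebraMap L _ a)
    (haI : ∀ s ∈ coefΓ L (N * r) (grpΓ (A.inertiaSubgroupIn ℚ)),
      A.valuation (SemilinearAut.baseAut s a / a - 1) ≤ A.valuation ((Λ.lam : A) : L)) :
    ∃ l : ℤ, A.valuation a = A.valuation (r : L) ^ l := by
  refine KField.val_zpow_of_sub H.hp H.hp2 H.hA J₀ H.hJI H.hJ (val_lam_pow Λ) H.hβ H.hβJ H.h1 H.h2
    ha ?_ ?_
  · have h1 : a ∈ fixL (coefΓ L (N * r) (grpΓ J₀)) := by
      intro s hs
      have h2 := haJ s hs
      rw [SemilinearAut.smul_algebraMap] at h2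
      exact (algebraMap L (modularFunctionFieldFullC L (N * r))).injective h2
    exact mem_fix₀_grpΓ.mp (mem_fixL_coefΓ.mp h1)
  · intro s hs
    obtain ⟨g, hg⟩ := exists_coefAut L (N * r) s.toRingEquiv
    have h1 := haI g ⟨s.toRingEquiv, ⟨s, hs, rfl⟩, hg⟩
    rw [baseAut_of_coef hg] at h1
    exact h1

end Conc

section Pen

variable {L : Type*} [Field L] [IsAlgClosed L] [CharZero L] [Algebra ℚ L] [IsGalois ℚ L]
  (A : ValuationSubring L)
  {κ : Type*} [Field κ] [IsAlgClosed κ] (π : A →+* κ) [IsLocalHom π] (hπ : Function.Surjective π)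
  (harch : ArchA π)
  (N r : ℕ) [hr : Fact r.Prime] [hN : NeZero N] [CharP κ r] (hrN : ¬ r ∣ N)
  (hg : genusFF κ (modularFunctionFieldFullC κ N) =
    genusFF L (modularFunctionFieldFullC L N))
  (d : CP.DecAut A π) (hd : CP.IsFrob d r)

/-- the divisor of poles of the pencil is fixed by coefficientwise automorphisms -/
theorem smul_pen_E {Γ₁ : Set (L ≃+* L)} {s : SemilinearAut L (modularFunctionFieldFullC L (N * r))}
    (hs : s ∈ coefΓ L (N * r) Γ₁) :
    s • (CP.pen A π hπ harch N r hrN hg d hd).E = (CP.pen A π hπ harch N r hrN hg d hd).E :=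
  KForm.E_mem (p := (CP.pen A π hπ harch N r hrN hg d hd).toPencil)
    (Γ := coefΓ L (N * r) Γ₁) (by
      rintro g ⟨σ, hσ, hg'⟩
      exact CP.smul_pen_t A π hπ harch N r hrN hg d hd hg') s hs

/-- **The rational structure of `X₀(N r)` over the fixed field of a subgroup of inertia.** -/
def ratDataX {Λ : LamData (twoVal A π hπ harch N r hrN).toRData r} {J₀ : Subgroup (L ≃ₐ[ℚ] L)}
    {β : L} (H : KHyp A r J₀ (A.valuation ((Λ.lam : A) : L)) β) :
    RatData (CP.pen A π hπ harch N r hrN hg d hd) (uData A π hπ harch N r hrN) Λ :=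
  ratData (A := A) (π := π) hπ harch N r hrN
    (fun _ hs => smul_pen_E A π hπ harch N r hrN hg d hd hs) Λ (inertPairX N r H)

/-- Galois elements attached to inertia -/
theorem exists_galV {s : SemilinearAut L (modularFunctionFieldFullC L (N * r))}
    (hs : s ∈ coefΓ L (N * r) (grpΓ (A.inertiaSubgroupIn ℚ))) :
    ∃ γ : TwoVal.GalV (twoVal A π hπ harch N r hrN), γ.g = s ∧ ∀ a, γ.σ a = a := by
  obtain ⟨_, ⟨s', hs', rfl⟩, hg'⟩ := hs
  refine ⟨galV A π hπ harch N r hrN (σ := s'.toRingEquiv) (inertia_mem_iff hs')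
    (s := RingEquiv.refl κ) (fun a => inertia_res π hs' a _) hg', rfl, fun a => ?_⟩
  apply Subtype.ext
  ext n
  rfl

/-- the cyclotomic exponent of a semilinear automorphism -/
def cycExp {M : ℕ} (ζ : L) (s : SemilinearAut L (modularFunctionFieldFullC L M)) : ℕ :=
  haveI := Classical.propDecidable (∃ k : ℕ, SemilinearAut.baseAut s ζ = ζ ^ k)
  if h : ∃ k : ℕ, SemilinearAut.baseAut s ζ = ζ ^ k then h.choose else 0

theorem cycExp_spec {M : ℕ} {n : ℕ} [NeZero n] {ζ : L} (hζ : IsPrimitiveRoot ζ n)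
    (s : SemilinearAut L (modularFunctionFieldFullC L M)) :
    SemilinearAut.baseAut s ζ = ζ ^ cycExp ζ s := by
  have h : ∃ k : ℕ, SemilinearAut.baseAut s ζ = ζ ^ k := by
    obtain ⟨k, -, hk⟩ := hζ.eq_pow_of_pow_eq_one (ξ := SemilinearAut.baseAut s ζ) (by
      rw [← map_pow, hζ.pow_eq_one, map_one])
    exact ⟨k, hk.symm⟩
  rw [cycExp, dif_pos h]
  exact h.choose_spec

variable {A} in
theorem coef_inertia {s' : L ≃ₐ[ℚ] L} (hs' : s' ∈ A.inertiaSubgroupIn ℚ) :
    (Classical.choose (exists_coefAut L (N * r) s'.toRingEquiv)) ∈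
      coefΓ L (N * r) (grpΓ (A.inertiaSubgroupIn ℚ)) :=
  ⟨s'.toRingEquiv, ⟨s', hs', rfl⟩, Classical.choose_spec (exists_coefAut L (N * r) s'.toRingEquiv)⟩

/-- **`InData` for `X₀(N r)`** with `λ = ζ - 1`. -/
def inDataX {ζ : A} (hζ : IsPrimitiveRoot (ζ : L) r) {J₀ : Subgroup (L ≃ₐ[ℚ] L)}
    {β : L} (H : KHyp A r J₀ (A.valuation ((((lamData
      (𝔇 := (twoVal A π hπ harch N r hrN).toRData) hr.out inferInstance hζ).lam : A)) : L)) β)
    {s₀ : L ≃ₐ[ℚ] L} (hs₀ : s₀ ∈ A.inertiaSubgroupIn ℚ) (hs₀ζ : s₀ (ζ : L) ≠ ζ) :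
    InData (ratDataX A π hπ harch N r hrN hg d hd (Λ := lamData
      (𝔇 := (twoVal A π hπ harch N r hrN).toRData) hr.out inferInstance hζ) H) where
  hγ s hs := exists_galV A π hπ harch N r hrN hs
  ht := by
    rintro s ⟨σ, hσ, hg'⟩
    exact CP.smul_pen_t A π hπ harch N r hrN hg d hd hg'
  χ := cycExp (ζ : L)
  hχ := by
    intro s hs
    have : NeZero r := ⟨hr.out.ne_zero⟩
    have h1 := cycExp_spec hζ s
    refine ⟨∑ j ∈ Finset.range (cycExp (ζ : L) s), (ζ : A) ^ j, ?_, ?_⟩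
    · rw [SemilinearAut.smul_algebraMap]
      congr 1
      have e1 : SemilinearAut.baseAut s (((ζ - 1 : A)) : L) = (ζ : L) ^ cycExp (ζ : L) s - 1 := by
        push_cast
        rw [map_sub, map_one, h1]
      have e2 : ((((ζ - 1 : A)) * ∑ j ∈ Finset.range (cycExp (ζ : L) s), (ζ : A) ^ j : A) : L) =
          (ζ : L) ^ cycExp (ζ : L) s - 1 := by
        push_cast
        rw [mul_comm, geom_sum_mul]
      exact e1.trans e2.symm
    · have hζ1 : π ζ = 1 := by
        have h2 : ζ ^ r = 1 := Subtype.ext (by push_cast; exact hζ.pow_eq_one)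
        have h3 : (π ζ) ^ r = 1 ^ r := by rw [← map_pow, h2, map_one, one_pow]
        exact frobenius_inj κ r h3
      show π (∑ j ∈ Finset.range (cycExp (ζ : L) s), (ζ : A) ^ j) = _
      rw [map_sum, Finset.sum_congr rfl fun j _ => by rw [map_pow, hζ1, one_pow], Finset.sum_const,
        Finset.card_range, nsmul_eq_mul, mul_one]
  s₀ := Classical.choose (exists_coefAut L (N * r) s₀.toRingEquiv)
  hs₀ := coef_inertia N r hs₀
  hχ₀ := by
    have : NeZero r := ⟨hr.out.ne_zero⟩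
    have h1 := cycExp_spec hζ (Classical.choose (exists_coefAut L (N * r) s₀.toRingEquiv))
    rw [baseAut_of_coef (Classical.choose_spec (exists_coefAut L (N * r) s₀.toRingEquiv))] at h1
    intro h2
    apply hs₀ζ
    have h3 : s₀ (ζ : L) = (ζ : L) ^ cycExp (ζ : L)
      (Classical.choose (exists_coefAut L (N * r) s₀.toRingEquiv)) := h1
    rw [h3]
    have h4 : cycExp (ζ : L) (Classical.choose (exists_coefAut L (N * r) s₀.toRingEquiv)) ≡ 1
        [MOD r] := by
      rw [Nat.ModEq.comm, Nat.modEq_iff_dvd]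
      exact_mod_cast h2
    have h5 := pow_eq_pow_of_modEq h4 hζ.pow_eq_one
    rw [h5, pow_one]

end Pen

end Fermat.Agent.LLc
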