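import Fermat.Agent.LLc.Twist
import Fermat.Agent.LLp.Contract
import Fermat.Agent.Degen.Abs
import Fermat.Agent.HeckeRed.Degen

/-!
# The operator `U` on functions on `X₀(N r)` and its contraction property
-/

set_option autoImplicit false
set_option linter.unusedSectionVars false
set_option linter.unusedVariables false
set_option linter.style.haveILetI false

noncomputable section

open HahnSeries ModularCurve Module AlgebraicCurve

namespace Fermat.Agent.LLc

open Fermat.Agent.Igusa Fermat.Agent.AtkinLehner Fermat.Agent.ModPoly Fermat.Agent.BadRed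
  Fermat.Agent.HeckeRed

theorem prod_zmod_eq_prod_fin {r : ℕ} [hr : Fact r.Prime] {M : Type*} [CommMonoid M]
    (F : ℕ → M) : haveI : NeZero r := ⟨hr.out.ne_zero⟩
    ∏ i : ZMod r, F i.val = ∏ b : Fin r, F b := by
  have hr0 : NeZero r := ⟨hr.out.ne_zero⟩
  symm
  refine Finset.prod_nbij' (fun j : Fin r ↦ ((j : ℕ) : ZMod r)) (fun x : ZMod r ↦ ⟨x.val, x.val_lt⟩)
      (fun _ _ ↦ Finset.mem_univ _) (fun x _ ↦ Finset.mem_univ _)
      (fun j hj ↦ ?_) (fun x _ ↦ ?_) (fun j hj ↦ ?_)
  · exact Fin.ext (ZMod.val_cast_of_lt j.2)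
  · exact ZMod.natCast_zmod_val x
  · rw [ZMod.val_cast_of_lt j.2]

section Fun

variable (L : Type*) [Field L] [IsAlgClosed L] [CharZero L]
  (N r : ℕ) [hr : Fact r.Prime] [hN : NeZero N] (hrN : ¬ r ∣ N)

instance neZero_fact_prime : NeZero r := ⟨hr.out.ne_zero⟩

/-- the operator `U` on functions: `U f = N(w f) / w f` -/
def UU : modularFunctionFieldFullC L (N * r) →* modularFunctionFieldFullC L (N * r) where
  toFun f := alpha1 L N r (normAlong (alpha1 L N r) (ww L N r hrN f)) * (ww L N r hrN f)⁻¹
  map_one' := by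
    have h : normAlong (alpha1 L N r) 1 = 1 := by
      letI := algebraAlong (alpha1 L N r)
      exact map_one (Algebra.norm (modularFunctionFieldFullC L N))
    rw [map_one, h, map_one, inv_one, mul_one]
  map_mul' f g := by
    have h : ∀ f g, normAlong (alpha1 L N r) (f * g) =
        normAlong (alpha1 L N r) f * normAlong (alpha1 L N r) g := by
      letI := algebraAlong (alpha1 L N r)
      exact map_mul (Algebra.norm (modularFunctionFieldFullC L N))
    rw [map_mul, h, map_mul, mul_inv]
    ring

theorem UU_apply (f : modularFunctionFieldFullC L (N * r)) : UU L N r hrN f =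
    alpha1 L N r (normAlong (alpha1 L N r) (ww L N r hrN f)) * (ww L N r hrN f)⁻¹ := rfl

variable {L} {v : Lˣ} (hv : IsPrimitiveRoot v r)

include hv in
/-- `(U f)(t^r) = ∏ f(ζ^i t)` -/
theorem qExpand_UU (f : modularFunctionFieldFullC L (N * r)) :
    qExpand L r (UU L N r hrN f : LaurentSeries L) =
      ∏ i : ZMod r, twist (v ^ i.val) (f : LaurentSeries L) := by
  rcases eq_or_ne f 0 with rfl | hf
  · have h1 : UU L N r hrN 0 = 0 := by
      rw [UU_apply, map_zero, inv_zero, mul_zero]
    rw [h1]
    have h2 : ((0 : modularFunctionFieldFullC L (N * r)) : LaurentSeries L) = 0 := rfl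
    rw [h2, map_zero]
    symm
    exact Finset.prod_eq_zero (Finset.mem_univ (0 : ZMod r)) (map_zero _)
  · have h1 := normAlong_alpha' (cast_ne_zero_L L N) (cast_ne_zero_Lr L r) hrN hv rfl rfl
      (alpha1 L N r) (coe_alpha1 L N r) (ww L N r hrN f)
    have h2 : w (cast_ne_zero_L L N) (cast_ne_zero_Lr L r) hrN (ww L N r hrN f) = f :=
      ww_ww L N r hrN f
    have h3 : (⟨(ww L N r hrN f : LaurentSeries L), (ww L N r hrN f).2⟩ :
      modularFunctionFieldFullC L (N * r)) = ww L N r hrN f := rfl
    rw [h3, h2] at h1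
    have h4 : ((UU L N r hrN f : modularFunctionFieldFullC L (N * r)) : LaurentSeries L) =
        ((normAlong (alpha1 L N r) (ww L N r hrN f) : modularFunctionFieldFullC L N) :
          LaurentSeries L) * ((ww L N r hrN f : LaurentSeries L))⁻¹ := by
      rw [UU_apply, ← coe_alpha1 L N r]
      rfl
    have h5 : (ww L N r hrN f : LaurentSeries L) ≠ 0 := by
      intro h0
      apply hf
      have : ww L N r hrN f = 0 := Subtype.ext h0
      exact (map_eq_zero _).1 this
    have h6 : qExpand L r (ww L N r hrN f : LaurentSeries L) ≠ 0 := by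
      intro h0
      exact h5 (qExpand_injective r (h0.trans (map_zero _).symm))
    rw [h4, map_mul, map_inv₀, prod_zmod_eq_prod_fin (fun n => twist (v ^ n) (f : LaurentSeries L))]
    rw [h1]
    field_simp

variable (L) in
theorem exists_root : ∃ v : Lˣ, IsPrimitiveRoot v r := by
  have : NeZero (r : L) := ⟨cast_ne_zero_Lr L r⟩
  obtain ⟨ζ, hζ⟩ := HasEnoughRootsOfUnity.exists_primitiveRoot L r
  exact ⟨(hζ.isUnit hr.out.ne_zero).unit, IsPrimitiveRoot.coe_units_iff.mp (by simpa using hζ)⟩

/-- `U c = c ^ r` -/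
theorem UU_algebraMap (c : L) : UU L N r hrN (algebraMap L _ c) = algebraMap L _ (c ^ r) := by
  obtain ⟨v, hv⟩ := exists_root L r
  apply Subtype.ext
  apply qExpand_injective r
  rw [qExpand_UU N r hrN hv]
  have h1 : ∀ c : L, ((algebraMap L (modularFunctionFieldFullC L (N * r)) c :
      modularFunctionFieldFullC L (N * r)) : LaurentSeries L) =
      algebraMap L (LaurentSeries L) c := fun c => rfl
  rw [h1, h1]
  simp only [twist_algebraMap]
  rw [Finset.prod_const, Finset.card_univ, ZMod.card, ← map_pow]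
  exact ((qExpandAlgHomC L r).commutes (c ^ r)).symm

include hrN in
/-- `U` commutes with coefficientwise actions -/
theorem UU_coeff (σ : L ≃+* L) {f g : modularFunctionFieldFullC L (N * r)}
    (hg : (g : LaurentSeries L) = coeffMap (σ : L →+* L) (f : LaurentSeries L)) :
    (UU L N r hrN g : LaurentSeries L) =
      coeffMap (σ : L →+* L) (UU L N r hrN f : LaurentSeries L) := by
  obtain ⟨v, hv⟩ := exists_root L r
  have hv' : IsPrimitiveRoot (Units.map ((σ : L →+* L) : L →* L) v) r :=
    hv.map_of_injective (Units.map_injective σ.injective)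
  apply qExpand_injective r
  rw [qExpand_UU N r hrN hv', ← coeffMap_qExp, qExpand_UU N r hrN hv, map_prod, hg]
  refine Finset.prod_congr rfl fun i _ => ?_
  rw [coeffMap_twist, map_pow]

/-- `U` commutes with semilinear automorphisms acting coefficientwise -/
theorem UU_smul {σ : L ≃+* L} {g : SemilinearAut L (modularFunctionFieldFullC L (N * r))}
    (hg : ∀ x : modularFunctionFieldFullC L (N * r),
      ((g • x : modularFunctionFieldFullC L (N * r)) : LaurentSeries L) =
        coeffMap (σ : L →+* L) (x : LaurentSeries L))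
    (f : modularFunctionFieldFullC L (N * r)) :
    UU L N r hrN (g • f) = g • UU L N r hrN f := by
  apply Subtype.ext
  rw [UU_coeff N r hrN σ (hg f), hg]

end Fun

section Contr

variable {L : Type*} [Field L] [IsAlgClosed L] [CharZero L] (A : ValuationSubring L)
  {κ : Type*} [Field κ] (π : A →+* κ) [IsLocalHom π] (hπ : Function.Surjective π)
  (harch : ArchA π)
  (N r : ℕ) [hr : Fact r.Prime] [hN : NeZero N] [CharP κ r] (hrN : ¬ r ∣ N)

theorem mem_O₁_of_qExpand {z : modularFunctionFieldFullC L (N * r)}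
    (h : qExpand L r (z : LaurentSeries L) ∈ gaussRing A π) : z ∈ O₁ A π N r := by
  by_contra hcon
  have hz0 : z ≠ 0 := by
    rintro rfl
    exact hcon (zero_mem _)
  have hi := ((O₁ A π N r).mem_or_inv_mem z).resolve_left hcon
  have hr0 : res₁ A π N r ⟨z⁻¹, hi⟩ = 0 := by
    by_contra h0
    have := res₁_unit A π N r hi h0
    rw [inv_inv] at this
    exact hcon this
  have hzi : ((z⁻¹ : modularFunctionFieldFullC L (N * r)) : LaurentSeries L) ∈ gaussRing A π := hi
  obtain ⟨h2, e2⟩ := qExpand_mem_gauss (A := A) (π := π) r hzi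
  have e3 : gaussRes A π ⟨((z⁻¹ : modularFunctionFieldFullC L (N * r)) : LaurentSeries L), hzi⟩ =
    0 := hr0
  rw [e3, map_zero] at e2
  have h4 : (⟨_, h2⟩ : gaussRing A π) * ⟨_, h⟩ = 1 := by
    apply Subtype.ext
    show qExpand L r ((z⁻¹ : modularFunctionFieldFullC L (N * r)) : LaurentSeries L) *
      qExpand L r (z : LaurentSeries L) = 1
    rw [← map_mul]
    have : ((z⁻¹ : modularFunctionFieldFullC L (N * r)) : LaurentSeries L) *
      (z : LaurentSeries L) = 1 := congrArg Subtype.val (inv_mul_cancel₀ hz0)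
    rw [this, map_one]
  have h5 := congrArg (gaussRes A π) h4
  rw [map_mul, e2, zero_mul, map_one] at h5
  exact zero_ne_one h5

include hrN in
theorem contr_O₁ (x y z z' : A) (h1 : x ^ r = y * z) (h2 : (r : A) * x = y * z')
    (f b : modularFunctionFieldFullC L (N * r)) (hb : b ∈ O₁ A π N r)
    (hf : f = 1 + algebraMap L _ (x : L) * b) :
    ∃ b' ∈ O₁ A π N r, UU L N r hrN f = 1 + algebraMap L _ (y : L) * b' := by
  obtain ⟨v, hv⟩ := exists_root L r
  by_cases hy : (y : L) = 0
  · have hy' : y = 0 := Subtype.ext hy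
    have hx : (x : L) = 0 := by
      have : x ^ r = 0 := by rw [h1, hy', zero_mul]
      have := congrArg Subtype.val this
      exact pow_eq_zero_iff hr.out.ne_zero |>.1 this
    refine ⟨0, zero_mem _, ?_⟩
    rw [hf, hx, map_zero, zero_mul, add_zero, map_one, mul_zero, add_zero]
  · obtain ⟨c, hc, hcE⟩ := contr_series (π := π) hv h1 h2 (b := (b : LaurentSeries L)) hb
    have hf' : (f : LaurentSeries L) =
        1 + algebraMap L (LaurentSeries L) (x : L) * (b : LaurentSeries L) := by
      rw [hf]; rfl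
    rw [← hf', ← qExpand_UU N r hrN hv] at hcE
    have hyF : algebraMap L (modularFunctionFieldFullC L (N * r)) (y : L) ≠ 0 := by
      rwa [Ne, map_eq_zero]
    have hyS : algebraMap L (LaurentSeries L) (y : L) ≠ 0 := by
      rwa [Ne, map_eq_zero]
    set w := (UU L N r hrN f - 1) * (algebraMap L (modularFunctionFieldFullC L (N * r)) (y : L))⁻¹
      with hw
    refine ⟨w, mem_O₁_of_qExpand A π N r ?_, ?_⟩
    · have e1 : (w : LaurentSeries L) = ((UU L N r hrN f : LaurentSeries L) - 1) *
          (algebraMap L (LaurentSeries L) (y : L))⁻¹ := rfl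
      have e2 : qExpand L r (algebraMap L (LaurentSeries L) (y : L)) =
        algebraMap L (LaurentSeries L) (y : L) := (qExpandAlgHomC L r).commutes _
      rw [e1, map_mul, map_sub, map_one, map_inv₀, e2, hcE]
      have e3 : (1 + algebraMap L (LaurentSeries L) (y : L) * c - 1) *
          (algebraMap L (LaurentSeries L) (y : L))⁻¹ = c := by
        field_simp
        ring
      rw [e3]
      exact hc
    · rw [hw]
      field_simp
      ring

/-- the operator on divisors -/
def dUU : Divisor L (modularFunctionFieldFullC L (N * r)) →+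
    Divisor L (modularFunctionFieldFullC L (N * r)) :=
  ((Degen.pull (alpha1 L N r)).comp ((Degen.push (alpha1 L N r)).comp
    (Degen.pull (ww L N r hrN).toAlgHom))) - Degen.pull (ww L N r hrN).toAlgHom

theorem dUU_apply (D : Divisor L (modularFunctionFieldFullC L (N * r))) :
    dUU N r hrN D = Degen.pull (alpha1 L N r) (Degen.push (alpha1 L N r)
      (Degen.pull (ww L N r hrN).toAlgHom D)) - Degen.pull (ww L N r hrN).toAlgHom D := rfl

theorem isDiv_iff {F : Type*} [Field F] [Algebra L F] [FunField.IsFF L F] {D : Divisor L F}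
    {f : F} : LLp.IsDiv D f ↔ f ≠ 0 ∧ D = FunField.divOf f := by
  constructor
  · rintro ⟨h0, h⟩
    exact ⟨h0, Finsupp.ext fun v => by rw [h, FunField.divOf_apply]⟩
  · rintro ⟨h0, rfl⟩
    exact ⟨h0, fun v => FunField.divOf_apply _ _⟩

theorem isDiv_dUU (D : Divisor L (modularFunctionFieldFullC L (N * r)))
    (f : modularFunctionFieldFullC L (N * r)) (h : LLp.IsDiv D f) :
    LLp.IsDiv (dUU N r hrN D) (UU L N r hrN f) := by
  obtain ⟨h0, rfl⟩ := isDiv_iff.1 h
  have hw0 : ww L N r hrN f ≠ 0 := by rwa [Ne, map_eq_zero]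
  have hn0 : normAlong (alpha1 L N r) (ww L N r hrN f) ≠ 0 :=
    normAlong_ne_zero _ (finiteAlong_of_isFF _) hw0
  have ha0 : alpha1 L N r (normAlong (alpha1 L N r) (ww L N r hrN f)) ≠ 0 := by
    rwa [Ne, map_eq_zero]
  have e1 : Degen.pull (ww L N r hrN).toAlgHom (FunField.divOf f) =
    FunField.divOf (ww L N r hrN f) := Degen.pull_divOf _ f
  rw [dUU_apply, e1, Degen.push_divOf _ hw0, Degen.pull_divOf, UU_apply]
  have h1 : LLp.IsDiv (FunField.divOf (K := L) (alpha1 L N r (normAlong (alpha1 L N r)
      (ww L N r hrN f)))) _ := isDiv_iff.2 ⟨ha0, rfl⟩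
  have h2 : LLp.IsDiv (FunField.divOf (K := L) (ww L N r hrN f)) _ := isDiv_iff.2 ⟨hw0, rfl⟩
  rw [sub_eq_add_neg]
  exact h1.mul h2.inv

/-- **The `UData` of `X₀(N r)` at `r`.** -/
def uData : LLp.UData (twoVal A π hπ harch N r hrN) r where
  w := ww L N r hrN
  hww f := ww_ww L N r hrN f
  hO f := Iff.rfl
  hr f h := rfl
  U := UU L N r hrN
  contr x y z z' h1 h2 f b hb hf := contr_O₁ A π N r hrN x y z z' h1 h2 f b hb hf
  dU := dUU N r hrN
  hdU D f h := isDiv_dUU N r hrN D f h

end Contr

end Fermat.Agent.LLc
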