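import Fermat.Agent.LLp.Approx
import Fermat.Agent.BadRed.NormConc
import Mathlib.NumberTheory.Wilson
import Mathlib.RingTheory.RootsOfUnity.Lemmas

/-!
# The uniformiser `λ = ζ - 1`
-/

set_option autoImplicit false

noncomputable section

open Module Polynomial AlgebraicCurve

namespace Fermat.Agent.LLc

open Fermat.Agent.BadRed Fermat.Agent.LLp

section Abs

variable {L : Type*} [Field L] {A : ValuationSubring L} {κ : Type*} [Field κ] {π : A →+* κ}

/-- the cofactor -/
def cofac (r : ℕ) (ζ : A) : A :=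
  (-1) ^ (r - 1) * ∏ k ∈ Finset.range (r - 1), ∑ j ∈ Finset.range (k + 1), ζ ^ j

theorem mul_cofac {r : ℕ} (hr : r.Prime) {ζ : A} (hζ : IsPrimitiveRoot (ζ : L) r) :
    (r : L) = ((cofac r ζ : A) : L) * ((ζ - 1 : A) : L) ^ (r - 1) := by
  obtain ⟨n, rfl⟩ : ∃ n, r = n + 1 := ⟨r - 1, by have := hr.one_le; omega⟩
  have h1 := hζ.prod_one_sub_pow_eq_order
  rw [Nat.add_sub_cancel]
  have h2 : ∀ k ∈ Finset.range n, (1 - (ζ : L) ^ (k + 1)) =
      (1 - (ζ : L)) * ∑ j ∈ Finset.range (k + 1), (ζ : L) ^ j := by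
    intro k _
    rw [mul_comm, geom_sum_mul_neg]
  rw [Finset.prod_congr rfl h2, Finset.prod_mul_distrib, Finset.prod_const,
    Finset.card_range] at h1
  have h3 : ((cofac (n + 1) ζ : A) : L) =
      (-1) ^ n * ∏ k ∈ Finset.range n, ∑ j ∈ Finset.range (k + 1), (ζ : L) ^ j := by
    simp [cofac]
  rw [h3]
  push_cast
  rw [← h1]
  have h4 : (1 - (ζ : L)) ^ n = (-1) ^ n * ((ζ : L) - 1) ^ n := by
    rw [← mul_pow]; congr 1; ring
  rw [h4]
  ring


theorem π_cofac {r : ℕ} [hr : Fact r.Prime] [CharP κ r] {ζ : A} (h : π ζ = 1) :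
    π (cofac r ζ) = -1 := by
  have h1 : π (cofac r ζ) = (-1) ^ (r - 1) * (((r - 1).factorial : ℕ) : κ) := by
    rw [cofac, map_mul, map_pow, map_neg, map_one, map_prod]
    congr 1
    rw [← Finset.prod_range_add_one_eq_factorial]
    push_cast
    refine Finset.prod_congr rfl fun k _ => ?_
    rw [map_sum, Finset.sum_congr rfl fun j _ => by rw [map_pow, h, one_pow], Finset.sum_const,
      Finset.card_range, nsmul_eq_mul, mul_one]
    push_cast
    rfl
  have h2 : (((r - 1).factorial : ℕ) : κ) = -1 := by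
    have h3 := ZMod.wilsons_lemma r
    have h4 := congrArg (ZMod.castHom (dvd_refl r) κ) h3
    rw [map_natCast, map_neg, map_one] at h4
    exact h4
  rw [h1, h2]
  rcases hr.out.eq_two_or_odd' with h3 | h3
  · subst h3
    have h4 : (2 : κ) = 0 := by exact_mod_cast CharP.cast_eq_zero κ 2
    simp only [Nat.add_one_sub_one, pow_one]
    linear_combination h4
  · obtain ⟨m, hm⟩ := h3
    rw [hm, Nat.add_sub_cancel, pow_mul, neg_one_sq, one_pow, one_mul]

end Abs

section Conc

variable {L k F R : Type*} [Field L] [Field k] [Field F] [CommRing R] [Algebra L F] [Algebra k R]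

/-- `λ = ζ - 1` -/
def lamData {𝔇 : RData L k F R} {r : ℕ} (hr : r.Prime) (hk : CharP k r) {ζ : 𝔇.A}
    (hζ : IsPrimitiveRoot (ζ : L) r) : LamData 𝔇 r where
  lam := ζ - 1
  lam_ne := by
    have h1 := hζ.ne_one hr.one_lt
    push_cast
    exact sub_ne_zero.mpr h1
  π_lam := by
    haveI := Fact.mk hr
    rw [map_sub, map_one, sub_eq_zero]
    have h1 : ζ ^ r = 1 := Subtype.ext (by push_cast; exact hζ.pow_eq_one)
    have h2 : (𝔇.π ζ) ^ r = 1 ^ r := by rw [← map_pow, h1, map_one, one_pow]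
    exact frobenius_inj k r h2
  c₀ := cofac r ζ
  π_c₀ := by
    haveI := Fact.mk hr
    apply π_cofac
    have h1 : ζ ^ r = 1 := Subtype.ext (by push_cast; exact hζ.pow_eq_one)
    have h2 : (𝔇.π ζ) ^ r = 1 ^ r := by rw [← map_pow, h1, map_one, one_pow]
    exact frobenius_inj k r h2
  hn := mul_cofac hr hζ

end Conc

end Fermat.Agent.LLc
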