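import Mathlib

/-!
# Pivots with weights, over a subfield
-/

set_option autoImplicit false

noncomputable section

open Module

namespace Fermat.Agent.LLc

/-- pivots with weights for a finite dimensional space of functions with values in a subfield,
for which weighted suprema are attained -/
theorem exists_pivot_weight {K L : Type*} [Field K] [Field L] (ι : K →+* L)
    (A : ValuationSubring L) {X : Type*} (w : X → L) (hw : ∀ x, w x ≠ 0) (n : ℕ) :
    ∀ V : Submodule K (X → K), FiniteDimensional K V →
    finrank K V = n → (∀ v ∈ V, v ≠ 0 → ∃ x, v x ≠ 0 ∧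
      ∀ x', w x' * ι (v x') / (w x * ι (v x)) ∈ A) →
    ∃ (y : Fin n → X → K) (x : Fin n → X), (∀ j, y j ∈ V) ∧
      (∀ j x', w x' * ι (y j x') / w (x j) ∈ A) ∧
      ∀ i j, y j (x i) = if i = j then 1 else 0 := by
  induction n with
  | zero =>
    intro V _ _ _
    exact ⟨Fin.elim0, Fin.elim0, fun i => i.elim0, fun i => i.elim0, fun i => i.elim0⟩
  | succ n ih =>
    intro V hfin hn htame
    have hpos : 0 < finrank K V := by omega
    obtain ⟨v, hv0⟩ : ∃ v : V, v ≠ 0 := by
      by_contra hcon
      push Not at hcon
      have : Subsingleton V := ⟨fun a b => (hcon a).trans (hcon b).symm⟩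
      rw [finrank_zero_of_subsingleton] at hpos
      exact lt_irrefl _ hpos
    have hv0' : (v : X → K) ≠ 0 := fun h => hv0 (Subtype.ext h)
    obtain ⟨x₀, hx₀, hmax⟩ := htame v v.2 hv0'
    set P : X → K := ((v : X → K) x₀)⁻¹ • (v : X → K) with hP
    have hPV : P ∈ V := V.smul_mem _ v.2
    have hP1 : P x₀ = 1 := by
      rw [hP, Pi.smul_apply, smul_eq_mul, inv_mul_cancel₀ hx₀]
    have hιx₀ : ι ((v : X → K) x₀) ≠ 0 := by rwa [Ne, map_eq_zero]
    have hwx₀ := hw x₀
    have hPA : ∀ x', w x' * ι (P x') / w x₀ ∈ A := by
      intro x'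
      have h1 := hmax x'
      rw [hP, Pi.smul_apply, smul_eq_mul, map_mul, map_inv₀]
      convert h1 using 1
      field_simp
    set φ₀ : (X → K) →ₗ[K] K := LinearMap.proj x₀ with hφ₀
    set V' : Submodule K (X → K) := V ⊓ LinearMap.ker φ₀ with hV'
    have hV'le : V' ≤ V := inf_le_left
    have : FiniteDimensional K V' := Submodule.finiteDimensional_of_le hV'le
    have hdim : finrank K V' = n := by
      set φ : V →ₗ[K] K := φ₀.comp V.subtype with hφ
      have hsurj : LinearMap.range φ = ⊤ := by
        rw [LinearMap.range_eq_top]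
        intro a
        refine ⟨a • ⟨P, hPV⟩, ?_⟩
        rw [map_smul]
        have : φ ⟨P, hPV⟩ = 1 := hP1
        rw [this, smul_eq_mul, mul_one]
      have h1 := φ.finrank_range_add_finrank_ker
      rw [hsurj, finrank_top, finrank_self, hn] at h1
      have h2 : (LinearMap.ker φ).map V.subtype = V' := by
        ext z
        simp only [Submodule.mem_map, LinearMap.mem_ker, Submodule.coe_subtype,
          Subtype.exists, exists_and_right, exists_eq_right, hV', Submodule.mem_inf]
        constructor
        · rintro ⟨hz, h⟩; exact ⟨hz, h⟩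
        · rintro ⟨hz, h⟩; exact ⟨hz, h⟩
      have h3 : finrank K V' = finrank K (LinearMap.ker φ) := by
        rw [← h2]
        exact (LinearEquiv.finrank_eq (Submodule.equivMapOfInjective V.subtype
          V.injective_subtype (LinearMap.ker φ))).symm
      omega
    obtain ⟨y, x, hyV, hyA, hpiv⟩ := ih V' inferInstance hdim (fun z hz => htame z (hV'le hz))
    have hy0 : ∀ j, y j x₀ = 0 := fun j => (hyV j).2
    set P' : X → K := P - ∑ j, P (x j) • y j with hP'
    have hP'a : ∀ z, P' z = P z - ∑ j, P (x j) * y j z := by
      intro z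
      rw [hP', Pi.sub_apply, Finset.sum_apply]
      rfl
    refine ⟨Fin.cons P' y, Fin.cons x₀ x, ?_, ?_, ?_⟩
    · intro j
      refine Fin.cases ?_ (fun j => ?_) j
      · simp only [Fin.cons_zero]
        exact V.sub_mem hPV (V.sum_mem fun j _ => V.smul_mem _ (hV'le (hyV j)))
      · simp only [Fin.cons_succ]
        exact hV'le (hyV j)
    · intro j
      refine Fin.cases ?_ (fun j => ?_) j
      · intro x'
        simp only [Fin.cons_zero]
        rw [hP'a, map_sub, map_sum, mul_sub, sub_div, Finset.mul_sum, Finset.sum_div]
        refine sub_mem (hPA _) (sum_mem fun j _ => ?_)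
        have h1 : w x' * ι (P (x j) * y j x') / w x₀ =
            (w (x j) * ι (P (x j)) / w x₀) * (w x' * ι (y j x') / w (x j)) := by
          have := hw (x j)
          rw [map_mul]
          field_simp
        rw [h1]
        exact mul_mem (hPA _) (hyA j _)
      · intro x'
        simp only [Fin.cons_succ]
        exact hyA j x'
    · intro i j
      refine Fin.cases ?_ (fun i => ?_) i
      · refine Fin.cases ?_ (fun j => ?_) j
        · simp only [Fin.cons_zero, if_true]
          rw [hP'a, hP1]
          simp [hy0]
        · simp only [Fin.cons_zero, Fin.cons_succ]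
          rw [hy0, if_neg (Fin.succ_ne_zero j).symm]
      · refine Fin.cases ?_ (fun j => ?_) j
        · simp only [Fin.cons_zero, Fin.cons_succ]
          rw [hP'a, if_neg (Fin.succ_ne_zero i)]
          have : ∑ j, P (x j) * y j (x i) = P (x i) := by
            simp only [hpiv i]
            simp
          rw [this, sub_self]
        · simp only [Fin.cons_succ, hpiv i j, Fin.succ_inj]

end Fermat.Agent.LLc
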