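import Fermat.Agent.LLc.Pivot
import Fermat.Agent.BadRed.KLat7
import Fermat.Agent.AtkinLehner.Coeff

/-!
# Rational joint orthonormal bases
-/

set_option autoImplicit false
set_option linter.unusedSectionVars false

noncomputable section

open HahnSeries ModularCurve Module AlgebraicCurve

namespace Fermat.Agent.LLc

open Fermat.Agent.Igusa Fermat.Agent.BadRed

attribute [local instance 2000] lsModule lsSMul

variable {L : Type*} [Field L] (A : ValuationSubring L) {κ : Type*} [Field κ] (π : A →+* κ)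
  {Γ₀ : Set (L ≃+* L)} {F : Type*} [Field F] [Algebra L F]

theorem coe_A₀ (a : A₀ A Γ₀) : ((iA A Γ₀ a : A) : L) = ((a : fix₀ Γ₀) : L) := rfl

/-- **Rational joint orthonormal bases**, abstract form. -/
theorem exists_rat_joint {ι : Type*} [Finite ι] [Nonempty ι]
    (ψ : ι → F →ₐ[L] LaurentSeries L) (γ : ι → L) (hγ : ∀ i, γ i ≠ 0) {d : ℕ} (f : Fin d → F)
    (hli : ∀ c : Fin d → fix₀ Γ₀, ∑ j, (c j : L) • f j = 0 → c = 0)
    (y : ι → Fin d → LaurentSeries (fix₀ Γ₀))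
    (hy : ∀ i j, coeffMap (fix₀ Γ₀).subtype (y i j) = ψ i (f j))
    (Q : ι → LaurentSeries (A₀ A Γ₀)) (hQ : ∀ i, coeffMap (π.comp (iA A Γ₀)) (Q i) ≠ 0)
    (hyQ : ∀ i j, y i j * coeffMap (A₀ A Γ₀).subtype (Q i) ∈ tame (fix₀ Γ₀)) :
    ∃ b : Fin d → F, (∀ j, ∃ c : L, c ≠ 0 ∧ ∃ m : Fin d → fix₀ Γ₀,
      c • b j = ∑ l, (m l : L) • f l) ∧
      ∃ h : ∀ j i, ψ i (γ i • b j) ∈ gaussRing A π,
        LinearIndependent κ (fun j => (fun i => gaussRes A π ⟨ψ i (γ i • b j), h j i⟩ :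
          ι → LaurentSeries κ)) := by
  classical
  have := Fintype.ofFinite ι
  -- the functions
  let m : Fin d → (ι × ℤ → fix₀ Γ₀) := fun j p =>
    (y p.1 j * coeffMap (A₀ A Γ₀).subtype (Q p.1)).coeff p.2
  -- combinations
  have hcomb : ∀ (c : Fin d → fix₀ Γ₀) (p : ι × ℤ), (∑ j, c j • m j) p =
      ((∑ j, algebraMap (fix₀ Γ₀) _ (c j) * y p.1 j) *
        coeffMap (A₀ A Γ₀).subtype (Q p.1)).coeff p.2 := by
    intro c p
    rw [Finset.sum_apply, Finset.sum_mul]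
    have hsum : ∀ (g : Fin d → LaurentSeries (fix₀ Γ₀)) (n : ℤ),
        (∑ j, g j).coeff n = ∑ j, (g j).coeff n := by
      intro g n
      exact map_sum (coeffLin (fix₀ Γ₀) n) g Finset.univ
    rw [hsum]
    refine Finset.sum_congr rfl fun j _ => ?_
    rw [mul_assoc, Igusa.coeff_algebraMap_mul]
    rfl
  have hcomb2 : ∀ (c : Fin d → fix₀ Γ₀) (i : ι), coeffMap (fix₀ Γ₀).subtype
      (∑ j, algebraMap (fix₀ Γ₀) _ (c j) * y i j) = ψ i (∑ j, (c j : L) • f j) := by
    intro c i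
    rw [map_sum, map_sum]
    refine Finset.sum_congr rfl fun j _ => ?_
    rw [map_mul, hy, psi_smul]
    congr 1
    exact AtkinLehner.coeffMap_algebraMap (fix₀ Γ₀).subtype (c j)
  have hQ0 : ∀ i, coeffMap (A₀ A Γ₀).subtype (Q i) ≠ 0 := fun i =>
    emb_ne_zero (A₀ A Γ₀) (π.comp (iA A Γ₀)) (hQ i)
  have hψinj : ∀ i, ∀ x : F, ψ i x = 0 → x = 0 := fun i x hx =>
    (ψ i).injective (hx.trans (map_zero _).symm)
  have hne : ∀ (c : Fin d → fix₀ Γ₀), c ≠ 0 → ∀ i,
      (∑ j, algebraMap (fix₀ Γ₀) (LaurentSeries (fix₀ Γ₀)) (c j) * y i j) ≠ 0 := by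
    intro c hc i h0
    apply hc
    apply hli
    apply hψinj i
    rw [← hcomb2, h0, map_zero]
  have hmli : LinearIndependent (fix₀ Γ₀) m := by
    rw [Fintype.linearIndependent_iff]
    intro c hc
    by_contra hcon
    push Not at hcon
    obtain ⟨j, hj⟩ := hcon
    have hc0 : c ≠ 0 := fun h => hj (congrFun h j)
    obtain ⟨i⟩ := ‹Nonempty ι›
    apply mul_ne_zero (hne c hc0 i) (hQ0 i)
    ext n
    have := congrFun hc (i, n)
    rw [hcomb] at this
    rw [this]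
    rfl
  let W : Submodule (fix₀ Γ₀) (ι × ℤ → fix₀ Γ₀) := Submodule.span (fix₀ Γ₀) (Set.range m)
  have hWfin : FiniteDimensional (fix₀ Γ₀) W := FiniteDimensional.span_of_finite _ (Set.finite_range m)
  have hWrank : finrank (fix₀ Γ₀) W = d := by
    rw [finrank_span_eq_card hmli, Fintype.card_fin]
  have htame : ∀ v ∈ W, v ≠ 0 → ∃ x, v x ≠ 0 ∧ ∀ x', γ x'.1 * (fix₀ Γ₀).subtype (v x') /
      (γ x.1 * (fix₀ Γ₀).subtype (v x)) ∈ A := by
    intro v hv hv0
    obtain ⟨c, rfl⟩ := (Submodule.mem_span_range_iff_exists_fun _).mp hv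
    have hc0 : c ≠ 0 := by
      rintro rfl
      apply hv0
      simp
    have hP : ∀ i, (∑ j, algebraMap (fix₀ Γ₀) (LaurentSeries (fix₀ Γ₀)) (c j) * y i j) *
        coeffMap (A₀ A Γ₀).subtype (Q i) ∈ tame (fix₀ Γ₀) := by
      intro i
      rw [Finset.sum_mul]
      refine Subalgebra.sum_mem _ fun j _ => ?_
      rw [mul_assoc]
      exact mul_mem (Subalgebra.algebraMap_mem _ _) (hyQ i j)
    choose n hn0 hn using fun i => exists_max_coeff (A₀ A Γ₀) (hP i)
      (mul_ne_zero (hne c hc0 i) (hQ0 i))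
    obtain ⟨i₀, -, hi₀⟩ := Finset.exists_max_image Finset.univ
      (fun i => A.valuation (γ i * (fix₀ Γ₀).subtype ((∑ j, c j • m j) (i, n i))))
      Finset.univ_nonempty
    refine ⟨(i₀, n i₀), by rw [hcomb]; exact hn0 i₀, ?_⟩
    rintro ⟨i, n'⟩
    rw [← A.valuation_le_one_iff, map_div₀]
    apply div_le_one_of_le₀ _ zero_le
    refine le_trans ?_ (hi₀ i (Finset.mem_univ _))
    simp only
    rw [map_mul, map_mul]
    refine mul_le_mul' le_rfl ?_
    have h3 : ((((∑ j, algebraMap (fix₀ Γ₀) (LaurentSeries (fix₀ Γ₀)) (c j) * y i j) *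
        coeffMap (A₀ A Γ₀).subtype (Q i)).coeff n' /
        ((∑ j, algebraMap (fix₀ Γ₀) (LaurentSeries (fix₀ Γ₀)) (c j) * y i j) *
        coeffMap (A₀ A Γ₀).subtype (Q i)).coeff (n i) : fix₀ Γ₀) : L) ∈ A := hn i n'
    rw [← A.valuation_le_one_iff] at h3
    push_cast at h3
    rw [map_div₀] at h3
    rw [hcomb, hcomb]
    have h4 : A.valuation ((((∑ j, algebraMap (fix₀ Γ₀) (LaurentSeries (fix₀ Γ₀)) (c j) * y i j) *
        coeffMap (A₀ A Γ₀).subtype (Q i)).coeff (n i) : fix₀ Γ₀) : L) ≠ 0 := by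
      rw [Valuation.ne_zero_iff]
      intro h0
      exact hn0 i (Subtype.ext h0)
    exact (div_le_one₀ (zero_lt_iff.mpr h4)).mp h3
  obtain ⟨Y, x, hYW, hYA, hpiv⟩ := exists_pivot_weight (fix₀ Γ₀).subtype A
    (fun p : ι × ℤ => γ p.1) (fun p => hγ p.1) d W hWfin hWrank htame
  choose c hc using fun j => (Submodule.mem_span_range_iff_exists_fun _).mp (hYW j)
  let b : Fin d → F := fun j => (γ (x j).1)⁻¹ • ∑ l, (c j l : L) • f l
  have hbsm : ∀ j, γ (x j).1 • b j = ∑ l, (c j l : L) • f l := by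
    intro j
    show γ (x j).1 • (γ (x j).1)⁻¹ • _ = _
    rw [smul_inv_smul₀ (hγ _)]
  -- lifts
  have hlift : ∀ j i, ∃ P : LaurentSeries A, coeffMap A.subtype P =
      ψ i (γ i • b j) * coeffMap A.subtype (coeffMap (iA A Γ₀) (Q i)) ∧
      ∀ n, ((P.coeff n : A) : L) = γ i * (Y j (i, n) : L) / γ (x j).1 := by
    intro j i
    have key : ∀ n, (ψ i (γ i • b j) *
        coeffMap A.subtype (coeffMap (iA A Γ₀) (Q i))).coeff n =
        γ i * (Y j (i, n) : L) / γ (x j).1 := by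
      intro n
      have e1 : γ i • b j = (γ i * (γ (x j).1)⁻¹) • ∑ l, (c j l : L) • f l := by
        show γ i • (γ (x j).1)⁻¹ • _ = _
        rw [smul_smul]
      rw [e1, psi_smul, mul_assoc, Igusa.coeff_algebraMap_mul, ← hcomb2, ← coeffMap_iA, ← map_mul,
        coeffMap_coeff, ← hcomb (c j) (i, n), hc]
      show γ i * (γ (x j).1)⁻¹ * (Y j (i, n) : L) = _
      ring
    obtain ⟨P, hP⟩ := exists_lift_of_coeff_mem A (x := ψ i (γ i • b j) *
        coeffMap A.subtype (coeffMap (iA A Γ₀) (Q i))) (fun n => by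
      rw [key]; exact hYA j (i, n))
    refine ⟨P, hP, fun n => ?_⟩
    rw [← key, ← hP]
    rfl
  choose P hP hPc using hlift
  have hQ' : ∀ i, coeffMap π (coeffMap (iA A Γ₀) (Q i)) ≠ 0 := fun i => by
    rw [← coeffMap_π_iA]; exact hQ i
  have hmem : ∀ j i, ψ i (γ i • b j) ∈ gaussRing A π := fun j i =>
    mem_gaussRing_iff.mpr ⟨P j i, coeffMap (iA A Γ₀) (Q i), hQ' i, (hP j i).symm⟩
  have hres : ∀ j i, gaussRes A π ⟨ψ i (γ i • b j), hmem j i⟩ =
      coeffMap π (P j i) / coeffMap π (coeffMap (iA A Γ₀) (Q i)) := fun j i =>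
    gaussRes_eq (⟨_, hmem j i⟩ : gaussRing A π) (hQ' i) (hP j i).symm
  refine ⟨b, fun j => ⟨γ (x j).1, hγ _, c j, hbsm j⟩, hmem, ?_⟩
  rw [Fintype.linearIndependent_iff]
  intro g hg l
  have h1 : ∀ i, ∑ j, algebraMap κ (LaurentSeries κ) (g j) * coeffMap π (P j i) = 0 := by
    intro i
    have h2 := congrFun hg i
    rw [Finset.sum_apply] at h2
    have h3 : ∀ j, (g j • (fun i => gaussRes A π ⟨ψ i (γ i • b j), hmem j i⟩ :
        ι → LaurentSeries κ)) i = algebraMap κ (LaurentSeries κ) (g j) * coeffMap π (P j i) /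
          coeffMap π (coeffMap (iA A Γ₀) (Q i)) := by
      intro j
      rw [Pi.smul_apply, hres j i, Algebra.smul_def, mul_div_assoc]
    rw [Finset.sum_congr rfl (fun j _ => h3 j), ← Finset.sum_div] at h2
    exact (div_eq_zero_iff.mp h2).resolve_right (hQ' i)
  have h4 := congrArg (fun z => coeffLin κ (x l).2 z) (h1 (x l).1)
  simp only [map_sum, map_zero] at h4
  have hpl : ∀ j, (P j (x l).1).coeff (x l).2 = if l = j then 1 else 0 := by
    intro j
    apply Subtype.ext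
    rw [hPc]
    have h7 := hpiv l j
    have h8 : (Y j ((x l).1, (x l).2) : L) = if l = j then 1 else 0 := by
      have h9 : Y j ((x l).1, (x l).2) = Y j (x l) := rfl
      rw [h9, h7]
      split_ifs <;> rfl
    rw [h8]
    split_ifs with h
    · subst h
      rw [mul_one, div_self (hγ _)]
      rfl
    · rw [mul_zero, zero_div]
      rfl
  rw [← h4, Finset.sum_eq_single l]
  · rw [coeffLin_apply, Igusa.coeff_algebraMap_mul, coeffMap_coeff, hpl, if_pos rfl, map_one,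
      mul_one]
  · intro j _ hj
    rw [coeffLin_apply, Igusa.coeff_algebraMap_mul, coeffMap_coeff, hpl, if_neg (Ne.symm hj),
      map_zero, mul_zero]
  · intro h
    exact absurd (Finset.mem_univ l) h

end Fermat.Agent.LLc
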