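import Fermat.Agent.LLc.RatBasis
import Fermat.Agent.LLc.CU
import Fermat.Agent.LLp.Rat
import Fermat.Agent.BadRed.KLat8

/-!
# The rational structure over an intermediate field: fields of `RatData`
-/

set_option autoImplicit false
set_option linter.unusedSectionVars false
set_option linter.style.haveILetI false

noncomputable section

open HahnSeries ModularCurve Module AlgebraicCurve

namespace Fermat.Agent.LLc

open Fermat.Agent.Igusa Fermat.Agent.BadRed Fermat.Agent.LLp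

section Denom

variable {L : Type*} [Field L] (A : ValuationSubring L) {κ : Type*} [Field κ] (π : A →+* κ)
  {Γ₀ : Set (L ≃+* L)}

/-- rational denominators -/
theorem exists_denom_rat (M : ℕ) {d : ℕ} (g : Fin d → modularFunctionFieldFullC L M)
    (hg : ∀ j n, (g j : LaurentSeries L).coeff n ∈ fix₀ Γ₀) :
    ∃ (y : Fin d → LaurentSeries (fix₀ Γ₀)) (Q : LaurentSeries (A₀ A Γ₀)),
      (∀ j, coeffMap (fix₀ Γ₀).subtype (y j) = g j) ∧ coeffMap (π.comp (iA A Γ₀)) Q ≠ 0 ∧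
      ∀ j, y j * coeffMap (A₀ A Γ₀).subtype Q ∈ tame (fix₀ Γ₀) := by
  choose y hy using fun j => exists_descend_coeff (hg j)
  have hmem : ∀ j, y j ∈ modularFunctionFieldFullC (fix₀ Γ₀) M := fun j =>
    MzCusp.mem_full_of_coeffMap (fix₀ Γ₀).subtype M (by rw [hy]; exact (g j).2)
  obtain ⟨Q, hQ, hQ0, hbQ⟩ := (isTameHom_val (isTameField_full (L := fix₀ Γ₀) M)).exists_common_denom
    (fun j => (⟨y j, hmem j⟩ : modularFunctionFieldFullC (fix₀ Γ₀) M))
  obtain ⟨c, hc0, Q₀, hQ₀, hcQ, -⟩ := exists_normalize (A₀ A Γ₀) (π.comp (iA A Γ₀)) hQ hQ0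
  exact ⟨y, Q₀, hy, hQ₀, fun j => tame_scale (A₀ A Γ₀) hc0 hcQ (hbQ j)⟩

/-- rational fractions with integral coefficients -/
theorem exists_frac_rat (M : ℕ) {f : modularFunctionFieldFullC L M}
    (hf : ∀ n, (f : LaurentSeries L).coeff n ∈ fix₀ Γ₀)
    (hO : (f : LaurentSeries L) ∈ gaussRing A π) :
    ∃ P Q : LaurentSeries (A₀ A Γ₀), coeffMap (π.comp (iA A Γ₀)) Q ≠ 0 ∧
      (f : LaurentSeries L) * coeffMap A.subtype (coeffMap (iA A Γ₀) Q) =
        coeffMap A.subtype (coeffMap (iA A Γ₀) P) := by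
  obtain ⟨y, hy⟩ := exists_descend_coeff hf
  have hmem : y ∈ modularFunctionFieldFullC (fix₀ Γ₀) M :=
    MzCusp.mem_full_of_coeffMap (fix₀ Γ₀).subtype M (by rw [hy]; exact f.2)
  have key : y ∈ gaussRing (A₀ A Γ₀) (π.comp (iA A Γ₀)) := by
    by_cases hy0 : y = 0
    · rw [hy0]
      exact zero_mem _
    rcases mem_or_inv_mem_gaussRing (A₀ A Γ₀) (π.comp (iA A Γ₀)) hmem
      (isTameField_full (L := fix₀ Γ₀) M) with h | h
    · exact h
    · by_cases hr : gaussRes (A₀ A Γ₀) (π.comp (iA A Γ₀)) ⟨_, h⟩ = 0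
      · exfalso
        obtain ⟨h', e'⟩ := gauss_base (A := A) (Γ₀ := Γ₀) (π := π) h
        rw [hr] at e'
        have h2 : (⟨_, h'⟩ : gaussRing A π) * ⟨(f : LaurentSeries L), hO⟩ = 1 := by
          apply Subtype.ext
          show coeffMap (fix₀ Γ₀).subtype y⁻¹ * (f : LaurentSeries L) = 1
          rw [← hy, ← map_mul, inv_mul_cancel₀ hy0, map_one]
        have h3 := congrArg (gaussRes A π) h2
        rw [map_mul, e', zero_mul, map_one] at h3
        exact zero_ne_one h3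
      · have := inv_mem_gauss (A₀ A Γ₀) (π.comp (iA A Γ₀)) h hr
        rwa [inv_inv] at this
  obtain ⟨P, Q, hQ, hPQ⟩ := mem_gaussRing_iff.mp key
  refine ⟨P, Q, hQ, ?_⟩
  rw [← coeffMap_iA, ← coeffMap_iA, ← hy, ← map_mul, hPQ]

/-- difference of a rational function and its conjugate -/
theorem exists_smul_sub_gauss (M : ℕ) {f : modularFunctionFieldFullC L M}
    (hf : ∀ n, (f : LaurentSeries L).coeff n ∈ fix₀ Γ₀)
    (hO : (f : LaurentSeries L) ∈ gaussRing A π) (σ : L ≃+* L) (hσ : ∀ a ∈ A, σ a ∈ A)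
    (hπσ : ∀ a : A, π ⟨σ a, hσ a a.2⟩ = π a) {lam : A} (hlam0 : (lam : L) ≠ 0)
    (hlam : ∀ a ∈ A, a ∈ fix₀ Γ₀ → ∃ b ∈ A, σ a - a = lam * b) :
    ∃ z ∈ gaussRing A π, coeffMap (σ : L →+* L) (f : LaurentSeries L) =
      (f : LaurentSeries L) + algebraMap L (LaurentSeries L) (lam : L) * z := by
  obtain ⟨P, Q, hQ, hPQ⟩ := exists_frac_rat A π M hf hO
  -- divided differences
  have hdiff : ∀ P : LaurentSeries (A₀ A Γ₀), ∃ P' : LaurentSeries A,
      coeffMap (σ : L →+* L) (coeffMap A.subtype (coeffMap (iA A Γ₀) P)) =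
        coeffMap A.subtype (coeffMap (iA A Γ₀) P) +
          algebraMap L (LaurentSeries L) (lam : L) * coeffMap A.subtype P' := by
    intro P
    have h1 : ∀ n, ∃ b ∈ A, σ (((P.coeff n : A₀ A Γ₀) : fix₀ Γ₀) : L) -
        (((P.coeff n : A₀ A Γ₀) : fix₀ Γ₀) : L) = lam * b := fun n =>
      hlam _ (P.coeff n).2 ((P.coeff n : A₀ A Γ₀) : fix₀ Γ₀).2
    let x : LaurentSeries L := algebraMap L (LaurentSeries L) (lam : L)⁻¹ *
      (coeffMap (σ : L →+* L) (coeffMap A.subtype (coeffMap (iA A Γ₀) P)) -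
        coeffMap A.subtype (coeffMap (iA A Γ₀) P))
    obtain ⟨P', hP'⟩ := exists_lift_of_coeff_mem A (x := x) (fun n => by
      obtain ⟨b, hb, e⟩ := h1 n
      have : x.coeff n = b := by
        show (algebraMap L (LaurentSeries L) (lam : L)⁻¹ * (_ - _)).coeff n = b
        rw [Igusa.coeff_algebraMap_mul, HahnSeries.coeff_sub]
        show (lam : L)⁻¹ * (σ (((P.coeff n : A₀ A Γ₀) : fix₀ Γ₀) : L) -
          (((P.coeff n : A₀ A Γ₀) : fix₀ Γ₀) : L)) = b
        rw [e, inv_mul_cancel_left₀ hlam0]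
      rw [this]
      exact hb)
    refine ⟨P', ?_⟩
    rw [hP', ← mul_assoc, ← map_mul, mul_inv_cancel₀ hlam0, map_one, one_mul]
    ring
  obtain ⟨P', hP'⟩ := hdiff P
  obtain ⟨Q', hQ'⟩ := hdiff Q
  have hlS : algebraMap L (LaurentSeries L) (lam : L) ≠ 0 := by rwa [Ne, map_eq_zero]
  set q : LaurentSeries L := coeffMap A.subtype (coeffMap (iA A Γ₀) Q) with hq
  set pp : LaurentSeries L := coeffMap A.subtype (coeffMap (iA A Γ₀) P) with hpp
  set q' : LaurentSeries L := coeffMap A.subtype Q' with hq'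
  set pp' : LaurentSeries L := coeffMap A.subtype P' with hpp'
  set ℓ : LaurentSeries L := algebraMap L (LaurentSeries L) (lam : L) with hℓ
  -- `σ` on `Q`
  have hσQ : coeffMap (σ : L →+* L) q = coeffMap A.subtype
      (coeffMap (sigmaA (σ := (σ : L →+* L)) hσ) (coeffMap (iA A Γ₀) Q)) := by
    ext n
    rfl
  have hσQπ : coeffMap π (coeffMap (sigmaA (σ := (σ : L →+* L)) hσ) (coeffMap (iA A Γ₀) Q)) =
      coeffMap π (coeffMap (iA A Γ₀) Q) := by
    ext n
    exact hπσ _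
  have hQπ : coeffMap π (coeffMap (iA A Γ₀) Q) ≠ 0 := by rw [← coeffMap_π_iA]; exact hQ
  have hfσ : coeffMap (σ : L →+* L) (f : LaurentSeries L) * coeffMap (σ : L →+* L) q =
      coeffMap (σ : L →+* L) pp := by rw [← map_mul, hPQ]
  have hq0 : q ≠ 0 := emb_ne_zero A π hQπ
  have hσq0 : coeffMap (σ : L →+* L) q ≠ 0 := by
    rw [hσQ]
    refine emb_ne_zero A π ?_
    rw [hσQπ]
    exact hQπ
  set z : LaurentSeries L := ℓ⁻¹ * (coeffMap (σ : L →+* L) (f : LaurentSeries L) - f) with hz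
  refine ⟨z, mem_gaussRing_iff.mpr ⟨P' * coeffMap (iA A Γ₀) Q - coeffMap (iA A Γ₀) P * Q',
    coeffMap (sigmaA (σ := (σ : L →+* L)) hσ) (coeffMap (iA A Γ₀) Q) * coeffMap (iA A Γ₀) Q,
    ?_, ?_⟩, ?_⟩
  · rw [map_mul, hσQπ]
    exact mul_ne_zero hQπ hQπ
  · rw [map_mul, map_sub, map_mul, map_mul, ← hσQ, ← hq, ← hpp, ← hq', ← hpp']
    have e1 : z * (coeffMap (σ : L →+* L) q * q) = ℓ⁻¹ *
        ((coeffMap (σ : L →+* L) (f : LaurentSeries L) * coeffMap (σ : L →+* L) q) * q -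
          (f : LaurentSeries L) * q * coeffMap (σ : L →+* L) q) := by
      rw [hz]; ring
    rw [e1, hfσ, hPQ, hP', hQ']
    field_simp
    ring
  · rw [hz]
    field_simp
    ring

end Denom

end Fermat.Agent.LLc
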