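import Fermat.Agent.LLc.RatConc
import Fermat.Agent.LLc.LamConc
import Fermat.Agent.LLp.MainAbs
import Fermat.Agent.BadRed.CPFinal
import Fermat.Agent.KField.Step

/-!
# The rational structure of `X₀(N r)` at `r`
-/

set_option autoImplicit false
set_option linter.unusedSectionVars false
set_option linter.style.haveILetI false

noncomputable section

open HahnSeries ModularCurve Module AlgebraicCurve

namespace Fermat.Agent.LLc

open Fermat.Agent.Igusa Fermat.Agent.BadRed Fermat.Agent.LLp Fermat.Agent.FunField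

attribute [local instance 2000] lsModule lsSMul

variable {L : Type*} [Field L] [IsAlgClosed L] [CharZero L] (A : ValuationSubring L)
  {κ : Type*} [Field κ] (π : A →+* κ) [IsLocalHom π] (hπ : Function.Surjective π)
  (harch : ArchA π)
  (N r : ℕ) [hr : Fact r.Prime] [hN : NeZero N] [CharP κ r] (hrN : ¬ r ∣ N)
  {Γ₀ : Set (L ≃+* L)}

/-- coordinates: rational bases of stable spaces -/
theorem exists_rat_basis (M : ℕ) (V : Submodule L (modularFunctionFieldFullC L M))
    [FiniteDimensional L V] (hV : ∀ g ∈ coefΓ L M Γ₀, ∀ f ∈ V, g • f ∈ V) :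
    ∃ f : Fin (finrank L V) → modularFunctionFieldFullC L M, (∀ i, f i ∈ V) ∧
      (∀ i, f i ∈ fixF (coefΓ L M Γ₀)) ∧
      ∀ c : Fin (finrank L V) → L, ∑ j, c j • f j = 0 → c = 0 := by
  obtain ⟨a, f, hfV, hdual, hrep⟩ := exists_coords V (cfM L M) (fun f hf => Subtype.ext (by
      ext n
      exact hf n))
  have hcf : ∀ g ∈ coefΓ L M Γ₀, ∀ n (f : modularFunctionFieldFullC L M),
      cfM L M n (g • f) = SemilinearAut.baseAut g (cfM L M n f) := by
    rintro g ⟨σ, hσ, hg⟩ n f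
    rw [cfM_apply, hg, coeffMap_coeff, baseAut_of_coef hg, cfM_apply]
    rfl
  refine ⟨f, hfV, ?_, ?_⟩
  · intro i g hg
    have h1 : ∀ j, cfM L M (a j) (g • f i) = if i = j then 1 else 0 := by
      intro j
      rw [hcf g hg, hdual]
      split_ifs
      · exact map_one _
      · exact map_zero _
    rw [hrep _ (hV g hg _ (hfV i))]
    rw [Finset.sum_eq_single i]
    · rw [h1, if_pos rfl, one_smul]
    · intro j _ hj
      rw [h1, if_neg (Ne.symm hj), zero_smul]
    · intro h; exact absurd (Finset.mem_univ i) h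
  · intro c hc
    funext i
    have h1 := congrArg (cfM L M (a i)) hc
    rw [map_sum, map_zero, Finset.sum_eq_single i] at h1
    · rw [map_smul, hdual, if_pos rfl, smul_eq_mul, mul_one] at h1
      exact h1
    · intro j _ hj
      rw [map_smul, hdual, if_neg hj, smul_zero]
    · intro h; exact absurd (Finset.mem_univ i) h

theorem ww_rat {f : modularFunctionFieldFullC L (N * r)} (hf : f ∈ fixF (coefΓ L (N * r) Γ₀)) :
    ∀ n, (ww L N r hrN f : LaurentSeries L).coeff n ∈ fix₀ Γ₀ :=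
  mem_fixF_coefΓ.mp (ww_mem_fixF N r hrN hf)

/-- **the field `orth`** -/
theorem orth_conc (V : Submodule L (modularFunctionFieldFullC L (N * r)))
    (hVf : FiniteDimensional L V) (hV : ∀ g ∈ coefΓ L (N * r) Γ₀, ∀ f ∈ V, g • f ∈ V)
    (γ₁ γ₂ : L) (hγ₁ : γ₁ ≠ 0) (hγ₂ : γ₂ ≠ 0) :
    ∃ (b : Fin (finrank L V) → modularFunctionFieldFullC L (N * r)) (_ : ∀ j, b j ∈ V)
      (h₁ : ∀ j, γ₁ • b j ∈ (twoVal A π hπ harch N r hrN).V₁.O)
      (h₂ : ∀ j, γ₂ • b j ∈ (twoVal A π hπ harch N r hrN).V₂.O),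
      LinearIndependent κ (fun j => (((twoVal A π hπ harch N r hrN).V₁.r ⟨_, h₁ j⟩,
        (twoVal A π hπ harch N r hrN).V₂.r ⟨_, h₂ j⟩) :
          modularFunctionFieldFullC κ N × modularFunctionFieldFullC κ N)) ∧
        ∀ j, ∃ c : L, c ≠ 0 ∧ ∀ s ∈ coefΓ L (N * r) Γ₀, s • (c • b j) = c • b j := by
  obtain ⟨f, hfV, hfF, hfli⟩ := exists_rat_basis (N * r) V hV
  obtain ⟨y₁, Q₁, hy₁, hQ₁, hyQ₁⟩ := exists_denom_rat A π (N * r) f
    (fun j => mem_fixF_coefΓ.mp (hfF j))
  obtain ⟨y₂, Q₂, hy₂, hQ₂, hyQ₂⟩ := exists_denom_rat A π (N * r) (fun j => ww L N r hrN (f j))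
    (fun j => ww_rat N r hrN (hfF j))
  obtain ⟨b, hb, hmem, hli⟩ := exists_rat_joint A π (ι := Bool) (F := modularFunctionFieldFullC L (N * r))
    (fun i => match i with
      | false => psi₁ L N r
      | true => psi₂ L N r hrN)
    (fun i => match i with
      | false => γ₁
      | true => γ₂) (by rintro (_ | _); exacts [hγ₁, hγ₂]) f
    (fun c hc => by
      have := hfli (fun j => (c j : L)) hc
      funext j
      exact Subtype.ext (congrFun this j))
    (fun i => match i with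
      | false => y₁
      | true => y₂)
    (by rintro (_ | _); exacts [hy₁, hy₂])
    (fun i => match i with
      | false => Q₁
      | true => Q₂)
    (by rintro (_ | _); exacts [hQ₁, hQ₂])
    (by rintro (_ | _); exacts [hyQ₁, hyQ₂])
  have hbV : ∀ j, b j ∈ V := by
    intro j
    obtain ⟨c, hc, m, e⟩ := hb j
    have : b j = c⁻¹ • ∑ l, (m l : L) • f l := by rw [← e, inv_smul_smul₀ hc]
    rw [this]
    exact V.smul_mem _ (sum_mem fun l _ => V.smul_mem _ (hfV l))
  refine ⟨b, hbV, fun j => hmem j false, fun j => hmem j true, ?_, ?_⟩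
  · let Φ : (modularFunctionFieldFullC κ N × modularFunctionFieldFullC κ N) →ₗ[κ]
        (Bool → LaurentSeries κ) :=
      LinearMap.pi (fun i => match i with
        | false => (modularFunctionFieldFullC κ N).val.toLinearMap.comp
            (LinearMap.fst κ (modularFunctionFieldFullC κ N) (modularFunctionFieldFullC κ N))
        | true => (modularFunctionFieldFullC κ N).val.toLinearMap.comp
            (LinearMap.snd κ (modularFunctionFieldFullC κ N) (modularFunctionFieldFullC κ N)))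
    refine LinearIndependent.of_comp Φ ?_
    convert hli using 1
    funext j i
    cases i <;> rfl
  · intro j
    obtain ⟨c, hc, m, e⟩ := hb j
    refine ⟨c, hc, fun s hs => ?_⟩
    rw [e]
    have : ∑ l, (m l : L) • f l ∈ fixF (coefΓ L (N * r) Γ₀) :=
      sum_mem fun l _ => smul_mem_fixF (mem_fixL_coefΓ.mpr (m l).2) (hfF l)
    exact this s hs

theorem smul_coe {M : ℕ} (c : L) (f : modularFunctionFieldFullC L M) :
    ((c • f : modularFunctionFieldFullC L M) : LaurentSeries L) =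
      algebraMap L (LaurentSeries L) c * f := psi_smul (modularFunctionFieldFullC L M).val c f

/-- **the field `scale₁`** -/
theorem scale₁_conc {f : modularFunctionFieldFullC L (N * r)} (hf0 : f ≠ 0)
    (hf : f ∈ fixF (coefΓ L (N * r) Γ₀)) :
    ∃ ρ : L, IsVl (twoVal A π hπ harch N r hrN).V₁ f ρ ∧
      ∀ s ∈ coefΓ L (N * r) Γ₀, s • algebraMap L (modularFunctionFieldFullC L (N * r)) ρ =
        algebraMap L _ ρ := by
  obtain ⟨c, hc, hc0, h, hr⟩ := exists_scale_rat (A := A) (π := π) (N * r) f.2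
    (coe_ne_zero_of_ne hf0) (mem_fixF_coefΓ.mp hf)
  have h1 : ((c • f : modularFunctionFieldFullC L (N * r)) : LaurentSeries L) =
      algebraMap L (LaurentSeries L) c * f := smul_coe c f
  have h2 : c • f ∈ (VV₁ A π hπ harch N r hrN).O := by
    show ((c • f : modularFunctionFieldFullC L (N * r)) : LaurentSeries L) ∈ gaussRing A π
    rw [h1]
    exact h
  refine ⟨c, ⟨hc0, h2, ?_⟩, ?_⟩
  · intro h0
    apply hr
    have h3 : gaussRes A π ⟨((c • f : modularFunctionFieldFullC L (N * r)) : LaurentSeries L), h2⟩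
        = 0 := congrArg Subtype.val h0
    exact (gaussRes_congr h1.symm).trans h3
  · exact algebraMap_mem_fixF (mem_fixL_coefΓ.mpr hc)

/-- **the field `scale₂`** -/
theorem scale₂_conc {f : modularFunctionFieldFullC L (N * r)} (hf0 : f ≠ 0)
    (hf : f ∈ fixF (coefΓ L (N * r) Γ₀)) :
    ∃ ρ : L, IsVl (twoVal A π hπ harch N r hrN).V₂ f ρ ∧
      ∀ s ∈ coefΓ L (N * r) Γ₀, s • algebraMap L (modularFunctionFieldFullC L (N * r)) ρ =
        algebraMap L _ ρ := by
  have hw0 : ww L N r hrN f ≠ 0 := by rwa [Ne, map_eq_zero]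
  obtain ⟨c, hc, hc0, h, hr⟩ := exists_scale_rat (A := A) (π := π) (N * r)
    (ww L N r hrN f).2 (coe_ne_zero_of_ne hw0) (ww_rat N r hrN hf)
  have h1 : (psi₂ L N r hrN (c • f)) =
      algebraMap L (LaurentSeries L) c * (ww L N r hrN f : LaurentSeries L) :=
    psi_smul (psi₂ L N r hrN) c f
  have h2 : c • f ∈ (VV₂ A π hπ harch N r hrN).O := by
    show psi₂ L N r hrN (c • f) ∈ gaussRing A π
    rw [h1]
    exact h
  refine ⟨c, ⟨hc0, h2, ?_⟩, ?_⟩
  · intro h0
    apply hr
    have h3 : gaussRes A π ⟨psi₂ L N r hrN (c • f), h2⟩ = 0 := congrArg Subtype.val h0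
    exact (gaussRes_congr h1.symm).trans h3
  · exact algebraMap_mem_fixF (mem_fixL_coefΓ.mpr hc)

/-- conditions on the pair of sets of automorphisms -/
structure InertPair (Γ₀ Γ₁ : Set (L ≃+* L)) (lam : A) : Prop where
  sub : Γ₀ ⊆ Γ₁
  mem : ∀ σ ∈ Γ₁, ∀ a ∈ A, σ a ∈ A
  res : ∀ σ ∈ Γ₁, ∀ (a : A) (h : σ a ∈ A), π ⟨σ a, h⟩ = π a
  diff : ∀ σ ∈ Γ₁, ∀ a ∈ A, a ∈ fix₀ Γ₀ → ∃ b ∈ A, σ a - a = lam * b

variable {A π} {Γ₁ : Set (L ≃+* L)} {lam : A}

/-- **the field `r1₁`** -/
theorem r1₁_conc (hlam0 : (lam : L) ≠ 0) (H : InertPair A π Γ₀ Γ₁ lam)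
    {f : modularFunctionFieldFullC L (N * r)} (hO : f ∈ O₁ A π N r)
    (hf : f ∈ fixF (coefΓ L (N * r) Γ₀)) {s : SemilinearAut L (modularFunctionFieldFullC L (N * r))}
    (hs : s ∈ coefΓ L (N * r) Γ₁) :
    ∃ z ∈ O₁ A π N r, s • f = f + algebraMap L _ (lam : L) * z := by
  obtain ⟨σ, hσ, hg⟩ := hs
  obtain ⟨z, hz, e⟩ := exists_smul_sub_gauss A π (N * r) (mem_fixF_coefΓ.mp hf) hO σ
    (H.mem σ hσ) (fun a => H.res σ hσ a _) hlam0 (H.diff σ hσ)
  have hlF : algebraMap L (modularFunctionFieldFullC L (N * r)) (lam : L) ≠ 0 := by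
    rwa [Ne, map_eq_zero]
  have hlS : algebraMap L (LaurentSeries L) (lam : L) ≠ 0 := by
    rwa [Ne, map_eq_zero]
  set z' : modularFunctionFieldFullC L (N * r) :=
    (algebraMap L (modularFunctionFieldFullC L (N * r)) (lam : L))⁻¹ * (s • f - f) with hz'
  have e1 : (z' : LaurentSeries L) = z := by
    have e2 : (z' : LaurentSeries L) = (algebraMap L (LaurentSeries L) (lam : L))⁻¹ *
        (((s • f : modularFunctionFieldFullC L (N * r)) : LaurentSeries L) - f) := rfl
    rw [e2, hg, e]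
    field_simp
    ring
  refine ⟨z', ?_, ?_⟩
  · rw [mem_O₁, e1]
    exact hz
  · rw [hz']
    field_simp
    ring

/-- **the field `r1₂`** -/
theorem r1₂_conc (hlam0 : (lam : L) ≠ 0) (H : InertPair A π Γ₀ Γ₁ lam)
    {f : modularFunctionFieldFullC L (N * r)} (hO : f ∈ O₂ A π N r hrN)
    (hf : f ∈ fixF (coefΓ L (N * r) Γ₀)) {s : SemilinearAut L (modularFunctionFieldFullC L (N * r))}
    (hs : s ∈ coefΓ L (N * r) Γ₁) :
    ∃ z ∈ O₂ A π N r hrN, s • f = f + algebraMap L _ (lam : L) * z := by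
  obtain ⟨z, hz, e⟩ := r1₁_conc N r hlam0 H (f := ww L N r hrN f) hO (ww_mem_fixF N r hrN hf) hs
  obtain ⟨σ, hσ, hg⟩ := hs
  refine ⟨ww L N r hrN z, (ww_mem_O₂ A π N r hrN).mpr hz, ?_⟩
  have h1 := congrArg (ww L N r hrN) e
  rw [← ww_smul N r hrN hg, ww_ww, map_add, map_mul, ww_ww, AlgEquiv.commutes] at h1
  exact h1

/-- **the field `rf`** -/
theorem rf_conc {D : Divisor L (modularFunctionFieldFullC L (N * r))}
    {h : modularFunctionFieldFullC L (N * r)} (hD : IsDiv D h)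
    (hDJ : ∀ s ∈ coefΓ L (N * r) Γ₀, s • D = D) :
    ∃ h' : modularFunctionFieldFullC L (N * r), IsDiv D h' ∧
      ∀ s ∈ coefΓ L (N * r) Γ₀, s • h' = h' := by
  have hS : (h : LaurentSeries L) ≠ 0 := coe_ne_zero_of_ne hD.1
  obtain ⟨n, hn⟩ : ∃ n, (h : LaurentSeries L).coeff n ≠ 0 := by
    by_contra hcon
    push Not at hcon
    exact hS (HahnSeries.ext (funext hcon))
  set c : L := ((h : LaurentSeries L).coeff n)⁻¹ with hc
  have hc0 : c ≠ 0 := inv_ne_zero hn
  have hDc : IsDiv D (algebraMap L _ c * h) := by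
    have := (IsDiv.const (F := modularFunctionFieldFullC L (N * r)) hc0).mul hD
    rwa [zero_add] at this
  refine ⟨algebraMap L _ c * h, hDc, ?_⟩
  have hcoef : (((algebraMap L (modularFunctionFieldFullC L (N * r)) c * h :
      modularFunctionFieldFullC L (N * r)) : LaurentSeries L)).coeff n = 1 := by
    have e1 : ((algebraMap L (modularFunctionFieldFullC L (N * r)) c * h :
      modularFunctionFieldFullC L (N * r)) : LaurentSeries L) =
      algebraMap L (LaurentSeries L) c * h := rfl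
    rw [e1, Igusa.coeff_algebraMap_mul, hc, inv_mul_cancel₀ hn]
  intro s hs
  have h1 := smul_isDiv s hDc
  rw [hDJ s hs] at h1
  obtain ⟨d, hd, e⟩ := h1.eq_const hDc
  obtain ⟨σ, hσ, hg⟩ := hs
  have h2 := congrArg (fun z : modularFunctionFieldFullC L (N * r) =>
    (z : LaurentSeries L).coeff n) e
  beta_reduce at h2
  rw [hg, coeffMap_coeff, hcoef] at h2
  have e3 : ((algebraMap L (modularFunctionFieldFullC L (N * r)) d *
      (algebraMap L (modularFunctionFieldFullC L (N * r)) c * h) :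
      modularFunctionFieldFullC L (N * r)) : LaurentSeries L) =
      algebraMap L (LaurentSeries L) d * ((algebraMap L (modularFunctionFieldFullC L (N * r)) c * h :
      modularFunctionFieldFullC L (N * r)) : LaurentSeries L) := rfl
  rw [e3, Igusa.coeff_algebraMap_mul, hcoef, mul_one, map_one] at h2
  rw [e, ← h2, map_one, one_mul]

/-- **The rational structure.** -/
def ratData {p : FrobPencil (twoVal A π hπ harch N r hrN).toRData}
    (hE : ∀ s ∈ coefΓ L (N * r) Γ₁, s • p.E = p.E)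
    (Λ : LamData (twoVal A π hπ harch N r hrN).toRData r)
    (H : InertPair A π Γ₀ Γ₁ (Λ.lam : A)) :
    RatData p (uData A π hπ harch N r hrN) Λ where
  I := coefΓ L (N * r) Γ₁
  J := coefΓ L (N * r) Γ₀
  hJI := by
    rintro s ⟨σ, hσ, hg⟩
    exact ⟨σ, H.sub hσ, hg⟩
  hE := hE
  hw := by
    rintro s ⟨σ, hσ, hg⟩ f
    exact (ww_smul N r hrN hg f).symm
  hU := by
    rintro s ⟨σ, hσ, hg⟩ f
    exact (UU_smul N r hrN hg f).symm
  hUc c hc := ⟨c ^ r, pow_ne_zero r hc, UU_algebraMap N r hrN c⟩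
  scale₁ f hf0 hf := scale₁_conc A π hπ harch N r hrN hf0 hf
  scale₂ f hf0 hf := scale₂_conc A π hπ harch N r hrN hf0 hf
  r1₁ f hO hf s hs := r1₁_conc (A := A) (π := π) N r Λ.lam_ne H hO hf hs
  r1₂ f hO hf s hs := r1₂_conc (A := A) (π := π) N r hrN Λ.lam_ne H hO hf hs
  rf D h hD hDJ := rf_conc N r hD hDJ
  orth V hVf hV γ₁ γ₂ hγ₁ hγ₂ := orth_conc A π hπ harch N r hrN V hVf hV γ₁ γ₂ hγ₁ hγ₂

end Fermat.Agent.LLc
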