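import Mathlib.RingTheory.MvPolynomial.Symmetric.NewtonIdentities
import Mathlib.Algebra.BigOperators.Ring.Finset
import Mathlib.Algebra.BigOperators.Group.Finset.Powerset

/-!
# Elementary symmetric functions and power sums
-/

set_option autoImplicit false

noncomputable section

open Finset

namespace Fermat.Agent.LLc

variable {ι : Type*} [Fintype ι] {R : Type*} [CommRing R]

/-- elementary symmetric function -/
def es (b : ι → R) (k : ℕ) : R := ∑ t ∈ powersetCard k univ, ∏ i ∈ t, b i

theorem es_zero (b : ι → R) : es b 0 = 1 := by simp [es]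

theorem es_eq_aeval (b : ι → R) (k : ℕ) :
    es b k = MvPolynomial.aeval b (MvPolynomial.esymm ι ℤ k) := by
  rw [MvPolynomial.esymm, map_sum]
  refine Finset.sum_congr rfl fun t _ => ?_
  rw [map_prod]
  exact Finset.prod_congr rfl fun i _ => (MvPolynomial.aeval_X _ _).symm

theorem newton (b : ι → R) (k : ℕ) : (k : R) * es b k = (-1) ^ (k + 1) *
    ∑ a ∈ antidiagonal k with a.1 < k, (-1) ^ a.1 * es b a.1 * ∑ i, b i ^ a.2 := by
  classical
  have h := congrArg (MvPolynomial.aeval b) (MvPolynomial.mul_esymm_eq_sum ι ℤ k)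
  rw [map_mul, map_natCast, ← es_eq_aeval, map_mul, map_pow, map_neg, map_one, map_sum] at h
  rw [h]
  congr 1
  refine Finset.sum_congr rfl fun a _ => ?_
  rw [map_mul, map_mul, map_pow, map_neg, map_one, ← es_eq_aeval, MvPolynomial.psum, map_sum]
  congr 1
  refine Finset.sum_congr rfl fun i _ => ?_
  rw [map_pow, MvPolynomial.aeval_X]

theorem prod_one_add_mul (b : ι → R) (x : R) :
    ∏ i, (1 + x * b i) = ∑ k ∈ range (Fintype.card ι + 1), x ^ k * es b k := by
  classical
  rw [Finset.prod_one_add, Finset.sum_powerset]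
  refine Finset.sum_congr rfl fun k _ => ?_
  rw [es, Finset.mul_sum]
  refine Finset.sum_congr rfl fun t ht => ?_
  rw [Finset.prod_mul_distrib, Finset.prod_const, (Finset.mem_powersetCard.1 ht).2]

theorem es_mem (S : Subring R) {b : ι → R} (hb : ∀ i, b i ∈ S) (k : ℕ) : es b k ∈ S :=
  sum_mem fun _ _ => prod_mem fun i _ => hb i

/-- Power sums divisible by `r` force the intermediate elementary symmetric functions to be
divisible by `r`. -/
theorem es_dvd (S : Subring R) {b : ι → R} (hb : ∀ i, b i ∈ S) (r : R)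
    (hp : ∀ m, 0 < m → ∃ y ∈ S, ∑ i, b i ^ m = r * y) {k : ℕ}
    {u : R} (hu : u ∈ S) (huk : u * k = 1) : ∃ y ∈ S, es b k = r * y := by
  classical
  choose! y hyS hy using hp
  have h1 : ∑ a ∈ antidiagonal k with a.1 < k, (-1) ^ a.1 * es b a.1 * ∑ i, b i ^ a.2 =
      r * ∑ a ∈ antidiagonal k with a.1 < k, (-1) ^ a.1 * es b a.1 * y a.2 := by
    rw [Finset.mul_sum]
    refine Finset.sum_congr rfl fun a ha => ?_
    rw [Finset.mem_filter, Finset.mem_antidiagonal] at ha
    rw [hy a.2 (by omega)]
    ring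
  refine ⟨u * ((-1) ^ (k + 1) *
    ∑ a ∈ antidiagonal k with a.1 < k, (-1) ^ a.1 * es b a.1 * y a.2), ?_, ?_⟩
  · refine S.mul_mem hu (S.mul_mem (S.pow_mem (S.neg_mem S.one_mem) _) (sum_mem fun a ha => ?_))
    rw [Finset.mem_filter, Finset.mem_antidiagonal] at ha
    exact S.mul_mem (S.mul_mem (S.pow_mem (S.neg_mem S.one_mem) _) (es_mem S hb _))
      (hyS _ (by omega))
  · have h2 := newton b k
    rw [h1] at h2
    calc es b k = u * (k * es b k) := by rw [← mul_assoc, huk, one_mul]
      _ = _ := by rw [h2]; ring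

end Fermat.Agent.LLc
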