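import Fermat.Agent.LLc.Sym
import Fermat.Agent.BadRed.Conc5
import Fermat.Agent.AtkinLehner.Norm

/-!
# Twists by roots of unity and the Gauss ring
-/

set_option autoImplicit false
set_option linter.unusedSectionVars false

noncomputable section

open HahnSeries ModularCurve Finset

namespace Fermat.Agent.LLc

open Fermat.Agent.Igusa Fermat.Agent.ModPoly

section Part

variable {R : Type*} [CommRing R]

/-- the part with exponents divisible by `r` -/
def rPart (r : ℕ) (x : LaurentSeries R) : LaurentSeries R where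
  coeff n := if (r : ℤ) ∣ n then x.coeff n else 0
  isPWO_support' := x.isPWO_support.mono (by
    intro n hn
    simp only [Function.mem_support, HahnSeries.mem_support] at hn ⊢
    intro h
    apply hn
    rw [h, ite_self])

theorem rPart_coeff (r : ℕ) (x : LaurentSeries R) (n : ℤ) :
    (rPart r x).coeff n = if (r : ℤ) ∣ n then x.coeff n else 0 := rfl

variable {r : ℕ} [hr : Fact r.Prime]

theorem sum_twist [IsDomain R] {u : Rˣ} (hu : IsPrimitiveRoot u r) (x : LaurentSeries R) :
    ∑ i : ZMod r, twist (u ^ i.val) x = (r : LaurentSeries R) * rPart r x := by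
  have hr0 : NeZero r := ⟨hr.out.ne_zero⟩
  ext n
  have hsum : (∑ i : ZMod r, twist (u ^ i.val) x).coeff n =
      ∑ i : ZMod r, (twist (u ^ i.val) x).coeff n := by
    classical
    induction (Finset.univ : Finset (ZMod r)) using Finset.induction with
    | empty => simp
    | insert a s ha ih => rw [Finset.sum_insert ha, Finset.sum_insert ha, HahnSeries.coeff_add, ih]
  rw [hsum, ← nsmul_eq_mul, HahnSeries.coeff_nsmul]
  simp only [twist_coeff, ← Finset.sum_mul, rPart_coeff, Pi.smul_apply]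
  have hpow : ∀ i : ZMod r, (((u ^ i.val) ^ n : Rˣ) : R) = ((u ^ n : Rˣ) : R) ^ i.val := by
    intro i
    rw [← Units.val_pow_eq_pow_val, ← zpow_natCast, ← zpow_natCast, ← zpow_mul, ← zpow_mul,
      mul_comm]
  have hgeom : ∑ i : ZMod r, (((u ^ i.val) ^ n : Rˣ) : R) =
      ∑ j ∈ range r, ((u ^ n : Rˣ) : R) ^ j := by
    rw [Finset.sum_congr rfl fun i _ => hpow i]
    symm
    refine Finset.sum_nbij' (fun j : ℕ ↦ (j : ZMod r)) (fun x : ZMod r ↦ x.val)
      (fun _ _ ↦ Finset.mem_univ _) (fun x _ ↦ Finset.mem_range.mpr x.val_lt)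
      (fun j hj ↦ ?_) (fun x _ ↦ ?_) (fun j hj ↦ ?_)
    · exact ZMod.val_cast_of_lt (Finset.mem_range.mp hj)
    · exact ZMod.natCast_zmod_val x
    · rw [ZMod.val_cast_of_lt (Finset.mem_range.mp hj)]
  rw [hgeom]
  by_cases h : (r : ℤ) ∣ n
  · rw [if_pos h]
    have h1 : u ^ n = 1 := by
      obtain ⟨m, rfl⟩ := h
      rw [zpow_mul, zpow_natCast, hu.pow_eq_one, one_zpow]
    rw [h1]
    simp
  · rw [if_neg h, smul_zero]
    have h1 : ((u ^ n : Rˣ) : R) ≠ 1 := by
      intro h2
      apply h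
      exact (hu.zpow_eq_one_iff_dvd n).1 (Units.ext h2)
    have h2 : ((u ^ n : Rˣ) : R) ^ r = 1 := by
      rw [← Units.val_pow_eq_pow_val, ← zpow_natCast, ← zpow_mul, mul_comm, zpow_mul,
        zpow_natCast, hu.pow_eq_one, one_zpow, Units.val_one]
    have h3 := mul_geom_sum (((u ^ n : Rˣ) : R)) r
    rw [h2, sub_self] at h3
    rw [(mul_eq_zero.1 h3).resolve_left (sub_ne_zero.2 h1), zero_mul]

theorem twist_shift {u : Rˣ} (hu : u ^ r = 1) (x : LaurentSeries R) (i : ZMod r) :
    twist u (twist (u ^ i.val) x) = twist (u ^ (i + 1).val) x := by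
  have hr0 : NeZero r := ⟨hr.out.ne_zero⟩
  have hr1 : Fact (1 < r) := ⟨hr.out.one_lt⟩
  rw [twist_twist]
  congr 1
  rw [ZMod.val_add, ZMod.val_one, ← pow_succ', ← pow_eq_pow_mod _ hu]

/-- the norm -/
def nTw (u : Rˣ) (r : ℕ) [Fact r.Prime] (x : LaurentSeries R) : LaurentSeries R :=
  haveI : NeZero r := ⟨(Fact.out : r.Prime).ne_zero⟩
  ∏ i : ZMod r, twist (u ^ i.val) x

theorem twist_nTw {u : Rˣ} (hu : u ^ r = 1) (x : LaurentSeries R) :
    twist u (nTw u r x) = nTw u r x := by
  have hr0 : NeZero r := ⟨hr.out.ne_zero⟩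
  rw [nTw, map_prod]
  rw [Finset.prod_congr rfl fun i _ => twist_shift hu x i]
  exact Equiv.prod_comp (Equiv.addRight (1 : ZMod r)) (fun i => twist (u ^ i.val) x)

theorem twist_pow_nTw {u : Rˣ} (hu : u ^ r = 1) (x : LaurentSeries R) (k : ℕ) :
    twist (u ^ k) (nTw u r x) = nTw u r x := by
  induction k with
  | zero => rw [pow_zero, twist_one]
  | succ k ih => rw [pow_succ, ← twist_twist, twist_nTw hu, ih]

theorem nTw_eq_mul (u : Rˣ) (x : LaurentSeries R) : ∃ y, nTw u r x = x * y := by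
  have hr0 : NeZero r := ⟨hr.out.ne_zero⟩
  classical
  refine ⟨∏ i ∈ Finset.univ.erase (0 : ZMod r), twist (u ^ i.val) x, ?_⟩
  rw [nTw, ← Finset.mul_prod_erase _ _ (Finset.mem_univ (0 : ZMod r)), ZMod.val_zero, pow_zero,
    twist_one]

end Part

section Gauss

variable {L : Type*} [Field L] {A : ValuationSubring L} {κ : Type*} [Field κ] {π : A →+* κ}
  {r : ℕ} [hr : Fact r.Prime] [CharP κ r] {v : Lˣ}

theorem exists_unitA (π : A →+* κ) (hv : v ^ r = 1) : ∃ u : Aˣ,
    Units.map (A.subtype : A →* L) u = v ∧ π (u : A) = 1 := by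
  have h1 : ∀ w : Lˣ, w ^ r = 1 → (w : L) ∈ A := by
    intro w hw
    rcases A.mem_or_inv_mem (w : L) with h | h
    · exact h
    · have h2 : (w : L) = ((w : L)⁻¹) ^ (r - 1) := by
        have h3 : (w : L) ^ r = 1 := by
          have := congrArg Units.val hw
          simpa using this
        have h4 : (w : L) * (w : L) ^ (r - 1) = 1 := by
          rw [← pow_succ', Nat.sub_add_cancel hr.out.one_le, h3]
        rw [inv_pow]
        exact eq_inv_of_mul_eq_one_left h4
      rw [h2]
      exact pow_mem h _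
  have hv' : (v⁻¹) ^ r = 1 := by rw [inv_pow, hv, inv_one]
  let u : Aˣ := ⟨⟨v, h1 v hv⟩, ⟨(v⁻¹ : Lˣ), h1 _ hv'⟩, Subtype.ext (by simp),
    Subtype.ext (by simp)⟩
  refine ⟨u, Units.ext rfl, ?_⟩
  have h3 : (u : A) ^ r = 1 := Subtype.ext (by
    show (v : L) ^ r = 1
    have := congrArg Units.val hv
    simpa using this)
  have h4 : (π (u : A) - 1) ^ r = 0 := by
    rw [sub_pow_char, ← map_pow, h3, map_one, one_pow, sub_self]
  exact sub_eq_zero.1 (pow_eq_zero_iff hr.out.ne_zero |>.1 h4)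

theorem twist_emb {u : Aˣ} (hu : Units.map (A.subtype : A →* L) u = v) (k : ℕ)
    (P : LaurentSeries A) :
    twist (v ^ k) (coeffMap A.subtype P) = coeffMap A.subtype (twist (u ^ k) P) := by
  rw [coeffMap_twist, ← hu, ← map_pow]

theorem coeffMap_twist_pi {u : Aˣ} (hu : π (u : A) = 1) (k : ℕ) (P : LaurentSeries A) :
    coeffMap π (twist (u ^ k) P) = coeffMap π P := by
  rw [coeffMap_twist]
  have : Units.map (π : A →* κ) (u ^ k) = 1 := by
    rw [map_pow]
    have : Units.map (π : A →* κ) u = 1 := Units.ext hu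
    rw [this, one_pow]
  exact (congrArg (fun w => twist w (coeffMap π P)) this).trans (twist_one _)

/-- twisting preserves the Gauss ring -/
theorem twist_mem (hv : v ^ r = 1) (k : ℕ) {x : LaurentSeries L} (hx : x ∈ gaussRing A π) :
    twist (v ^ k) x ∈ gaussRing A π := by
  obtain ⟨u, hu, hu1⟩ := exists_unitA (r := r) π hv
  obtain ⟨P, Q, hQ, hPQ⟩ := mem_gaussRing_iff.mp hx
  refine mem_gaussRing_iff.mpr ⟨twist (u ^ k) P, twist (u ^ k) Q, ?_, ?_⟩
  · rwa [coeffMap_twist_pi hu1]
  · rw [← twist_emb hu, ← twist_emb hu, ← hPQ, map_mul]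

/-- **the trace is divisible by `r`** -/
theorem sum_twist_mem (hv : IsPrimitiveRoot v r) {x : LaurentSeries L}
    (hx : x ∈ gaussRing A π) : haveI : NeZero r := ⟨hr.out.ne_zero⟩
    ∃ y ∈ gaussRing A π, ∑ i : ZMod r, twist (v ^ i.val) x = (r : LaurentSeries L) * y := by
  have hr0 : NeZero r := ⟨hr.out.ne_zero⟩
  have hv1 := hv.pow_eq_one
  obtain ⟨u, hu, hu1⟩ := exists_unitA (r := r) π hv1
  have hup : IsPrimitiveRoot u r := by
    rw [← hu] at hv
    exact hv.of_map_of_injective (Units.map_injective Subtype.val_injective)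
  obtain ⟨P, Q, hQ, hPQ⟩ := mem_gaussRing_iff.mp hx
  set D := nTw u r Q with hD
  obtain ⟨D', hD'⟩ := nTw_eq_mul (r := r) u Q
  have hDπ : coeffMap π D = coeffMap π Q ^ r := by
    rw [hD, nTw, map_prod, Finset.prod_congr rfl fun i _ => coeffMap_twist_pi hu1 _ Q,
      Finset.prod_const, Finset.card_univ, ZMod.card]
  have hD0 : coeffMap π D ≠ 0 := by rw [hDπ]; exact pow_ne_zero _ hQ
  have hDL : coeffMap A.subtype D ≠ 0 := by
    intro h
    have h0 : D = 0 := emb_injective A (h.trans (map_zero _).symm)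
    rw [h0, map_zero] at hD0
    exact hD0 rfl
  have hxD : x * coeffMap A.subtype D = coeffMap A.subtype (P * D') := by
    rw [hD, hD', map_mul, map_mul, ← mul_assoc, hPQ]
  have hkey : (∑ i : ZMod r, twist (v ^ i.val) x) * coeffMap A.subtype D =
      coeffMap A.subtype ((r : LaurentSeries A) * rPart r (P * D')) := by
    rw [← sum_twist hup, map_sum, Finset.sum_mul]
    refine Finset.sum_congr rfl fun i _ => ?_
    rw [← twist_emb hu, ← hxD, map_mul, twist_emb hu, hD, twist_pow_nTw hup.pow_eq_one]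
  refine ⟨coeffMap A.subtype (rPart r (P * D')) / coeffMap A.subtype D,
    mem_gaussRing_iff.mpr ⟨rPart r (P * D'), D, hD0, ?_⟩, ?_⟩
  · rw [div_mul_cancel₀ _ hDL]
  · rw [map_mul, map_natCast] at hkey
    rw [← mul_div_assoc, eq_div_iff hDL, hkey]

variable [IsLocalHom π]

variable (π) in
include π in
theorem exists_inv_natCast {k : ℕ} (hk : 0 < k) (hkr : k < r) :
    ∃ a : A, (a : L) * k = 1 := by
  have h1 : π (k : A) ≠ 0 := by
    rw [map_natCast, Ne, CharP.cast_eq_zero_iff κ r]
    exact Nat.not_dvd_of_pos_of_lt hk hkr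
  have h2 : IsUnit (k : A) := isUnit_of_map_unit π _ (isUnit_iff_ne_zero.mpr h1)
  obtain ⟨a, ha⟩ := h2.exists_left_inv
  refine ⟨a, ?_⟩
  have := congrArg Subtype.val ha
  simpa using this

/-- **The contraction.** -/
theorem contr_series (hv : IsPrimitiveRoot v r) {x y z z' : A}
    (h1 : x ^ r = y * z) (h2 : (r : A) * x = y * z') {b : LaurentSeries L}
    (hb : b ∈ gaussRing A π) : haveI : NeZero r := ⟨hr.out.ne_zero⟩
    ∃ b' ∈ gaussRing A π,
      ∏ i : ZMod r, twist (v ^ i.val) (1 + algebraMap L (LaurentSeries L) (x : L) * b) =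
        1 + algebraMap L (LaurentSeries L) (y : L) * b' := by
  have hr0 : NeZero r := ⟨hr.out.ne_zero⟩
  have hv1 := hv.pow_eq_one
  let c : A →+* LaurentSeries L := (algebraMap L (LaurentSeries L)).comp A.subtype
  have hcmem : ∀ a : A, c a ∈ gaussRing A π := fun a => algebraMap_mem_gaussRing A π a
  change ∃ b' ∈ gaussRing A π, ∏ i : ZMod r, twist (v ^ i.val) (1 + c x * b) = 1 + c y * b'
  set B : ZMod r → LaurentSeries L := fun i => twist (v ^ i.val) b with hB
  have hBmem : ∀ i, B i ∈ gaussRing A π := fun i => twist_mem hv1 _ hb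
  have hps : ∀ m, 0 < m → ∃ y ∈ gaussRing A π, ∑ i, B i ^ m = (r : LaurentSeries L) * y := by
    intro m _
    obtain ⟨y, hy, e⟩ := sum_twist_mem hv (pow_mem hb m)
    refine ⟨y, hy, ?_⟩
    rw [← e]
    exact Finset.sum_congr rfl fun i _ => (map_pow _ _ _).symm
  have hes : ∀ k : ℕ, 0 < k → k < r → ∃ y ∈ gaussRing A π, es B k = (r : LaurentSeries L) * y := by
    intro k hk hkr
    obtain ⟨a, ha⟩ := exists_inv_natCast π hk hkr
    refine es_dvd (gaussRing A π) hBmem _ hps (hcmem a) ?_
    show algebraMap L (LaurentSeries L) (a : L) * (k : LaurentSeries L) = 1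
    rw [← map_natCast (algebraMap L (LaurentSeries L)), ← map_mul, ha, map_one]
  choose! g hg hge using hes
  have hprod : ∏ i : ZMod r, twist (v ^ i.val) (1 + c x * b) = ∏ i, (1 + c x * B i) :=
    Finset.prod_congr rfl fun i _ => by
      rw [map_add, map_one, map_mul]
      congr 2
      exact twist_algebraMap _ _
  rw [hprod, prod_one_add_mul, ZMod.card, Finset.sum_range_succ]
  obtain ⟨r', hr'⟩ : ∃ r', r = r' + 1 := ⟨r - 1, by have := hr.out.pos; omega⟩
  have hsplit : ∑ k ∈ range r, c x ^ k * es B k =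
      1 + ∑ k ∈ range r', c x ^ (k + 1) * es B (k + 1) := by
    have h3 : range r = range (r' + 1) := by rw [← hr']
    rw [h3, Finset.sum_range_succ', pow_zero, es_zero, mul_one, add_comm]
  rw [hsplit]
  refine ⟨∑ k ∈ range r', c (z' * x ^ k) * g (k + 1) + c z * es B r, ?_, ?_⟩
  · refine add_mem (sum_mem fun k hk => mul_mem (hcmem _) (hg _ (by omega) ?_))
      (mul_mem (hcmem _) (es_mem _ hBmem _))
    have := Finset.mem_range.1 hk
    omega
  · rw [mul_add, Finset.mul_sum, ← add_assoc]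
    congr 1
    · congr 1
      refine Finset.sum_congr rfl fun k hk => ?_
      have hk' := Finset.mem_range.1 hk
      rw [hge (k + 1) (by omega) (by omega)]
      have h3 : c x ^ (k + 1) * ((r : LaurentSeries L) * g (k + 1)) =
          c ((r : A) * x) * c x ^ k * g (k + 1) := by
        rw [map_mul, map_natCast]; ring
      rw [h3, h2, map_mul, map_mul, map_pow]
      ring
    · rw [← map_pow, h1, map_mul]
      ring

end Gauss

end Fermat.Agent.LLc
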